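/-
GATE-R (S17) / node GR-H-PL-EV (helper63): **the evaluation matrix of a reduced divisor**
(ask (2) of helper43's PL contract, board 4782).

Abstract frame: a function field `F / K` with the Riemann–Roch package (`FiniteResidues`,
`HasPrincipalDivisors`), a divisor `A` (in the gate `A = m·∞`), pairwise distinct places
`P i` of degree one outside the support of `A`, and a family `b j` of functions of `L(A)`.

* `evalAt P f : K`            : the value `f(P)` (`0` when `f` has no value at `P`);
  `valueAt_evalAt`, `evalAt_eq_of_valueAt`, `evalAt_add/smul/sum`, `evalAt_eq_zero_iff`;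
* `evMat P b`                 : the evaluation matrix `(b j (P i))_{i,j}`;
* `evMat_mulVec`              : `(evMat P b *ᵥ c) i = (Σ c_j b_j)(P i)`;
* `mem_sub_sumDiv_iff`        : `f ∈ L(A)`: `f ∈ L(A - Σ P_i) ↔ ∀ i, f(P i) = 0`;
* `mulVec_eq_zero_iff`        : `evMat P b *ᵥ c = 0 ↔ Σ c_j b_j ∈ L(A - Σ P_i)`
  (= "ker evMat is the coordinate space of `L(A - D)`");
* `evMat_mul_transpose_eq_zero` : `E * Wᵀ = 0` for every coordinate matrix `W` of functions of
  `L(A - D)` (the input of Plücker duality / complementary minors);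
* `finrank_ker_evMat`, `rank_evMat` : for a basis `b` of `L(A)`,
  `rank evMat = ℓ(A) - ℓ(A - D)`;
* `rank_evMat_eq_card`        : `= d` as soon as `deg A - d ≥ c` (`c` the Riemann threshold of
  `RR/Final.exists_ell_eq`); `linearIndependent_rows`.
-/
import Mathlib
import Fermat.Agent.GH.Disc.Values
import Fermat.Agent.RR.Final
import Fermat.Prelude.Def_AlgebraicCurve_BaseChangeGalois

set_option autoImplicit false

noncomputable section

open AlgebraicCurve

namespace Fermat.Agent.GR.H.PL.Ev

open Fermat.Agent.RRh45 Fermat.Agent.S24 Fermat.Agent.GH Fermat.Agent.GH.Disc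

variable {K F : Type*} [Field K] [Field F] [Algebra K F]

/-! ### the value of a function at a place -/

open Classical in
/-- the value `f(P)` of `f` at the place `P`; `0` if `f` has no value at `P` (a pole, or a
residue outside `K`). -/
def evalAt (P : Place K F) (f : F) : K := if h : ∃ a : K, ValueAt P f a then h.choose else 0

theorem evalAt_eq_of_valueAt {P : Place K F} {f : F} {a : K} (h : ValueAt P f a) :
    evalAt P f = a := by
  have hex : ∃ a : K, ValueAt P f a := ⟨a, h⟩
  unfold evalAt
  rw [dif_pos hex]
  exact valueAt_unique hex.choose_spec h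

theorem valueAt_evalAt {P : Place K F} (hP : P.deg = 1) {f : F}
    (hf : f ∈ P.toValuationSubring) : ValueAt P f (evalAt P f) := by
  obtain ⟨a, ha⟩ := exists_valueAt hP hf
  rw [evalAt_eq_of_valueAt ha]
  exact ha

theorem evalAt_algebraMap (P : Place K F) (a : K) : evalAt P (algebraMap K F a) = a :=
  evalAt_eq_of_valueAt (valueAt_const P a)

theorem evalAt_zero (P : Place K F) : evalAt P (0 : F) = 0 := by
  simpa using evalAt_algebraMap P (0 : K)

theorem evalAt_add {P : Place K F} (hP : P.deg = 1) {f g : F} (hf : f ∈ P.toValuationSubring)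
    (hg : g ∈ P.toValuationSubring) : evalAt P (f + g) = evalAt P f + evalAt P g :=
  evalAt_eq_of_valueAt (valueAt_add (valueAt_evalAt hP hf) (valueAt_evalAt hP hg))

theorem evalAt_mul {P : Place K F} (hP : P.deg = 1) {f g : F} (hf : f ∈ P.toValuationSubring)
    (hg : g ∈ P.toValuationSubring) : evalAt P (f * g) = evalAt P f * evalAt P g :=
  evalAt_eq_of_valueAt (valueAt_mul (valueAt_evalAt hP hf) (valueAt_evalAt hP hg))

theorem evalAt_smul {P : Place K F} (hP : P.deg = 1) (c : K) {f : F}
    (hf : f ∈ P.toValuationSubring) : evalAt P (c • f) = c * evalAt P f := by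
  rw [Algebra.smul_def]
  have h := valueAt_mul (valueAt_const P c) (valueAt_evalAt hP hf)
  exact evalAt_eq_of_valueAt h

theorem smul_mem_valuationSubring (P : Place K F) (c : K) {f : F}
    (hf : f ∈ P.toValuationSubring) : c • f ∈ P.toValuationSubring := by
  rw [Algebra.smul_def]
  exact mul_mem (P.algebraMap_mem' c) hf

theorem sum_mem_valuationSubring (P : Place K F) {κ : Type*} (s : Finset κ) (c : κ → K)
    {b : κ → F} (hb : ∀ j ∈ s, b j ∈ P.toValuationSubring) :
    ∑ j ∈ s, c j • b j ∈ P.toValuationSubring :=
  sum_mem fun j hj => smul_mem_valuationSubring P (c j) (hb j hj)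

theorem evalAt_sum {P : Place K F} (hP : P.deg = 1) {κ : Type*} (s : Finset κ) (c : κ → K)
    {b : κ → F} (hb : ∀ j ∈ s, b j ∈ P.toValuationSubring) :
    evalAt P (∑ j ∈ s, c j • b j) = ∑ j ∈ s, c j * evalAt P (b j) := by
  classical
  induction s using Finset.induction_on with
  | empty => simpa using evalAt_zero P
  | insert i s hi ih =>
    have hb' : ∀ j ∈ s, b j ∈ P.toValuationSubring := fun j hj => hb j (Finset.mem_insert_of_mem hj)
    rw [Finset.sum_insert hi, Finset.sum_insert hi,
      evalAt_add hP (smul_mem_valuationSubring P (c i) (hb i (Finset.mem_insert_self i s)))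
        (sum_mem_valuationSubring P s c hb'),
      evalAt_smul hP (c i) (hb i (Finset.mem_insert_self i s)), ih hb']

/-- a regular function vanishes at `P` iff its value is `0`. -/
theorem evalAt_eq_zero_iff {P : Place K F} (hP : P.deg = 1) {f : F}
    (hf : f ∈ P.toValuationSubring) : evalAt P f = 0 ↔ f = 0 ∨ 0 < P.ord f := by
  rw [← valueAt_zero_iff P f]
  constructor
  · intro h
    have := valueAt_evalAt hP hf
    rwa [h] at this
  · intro h
    exact evalAt_eq_of_valueAt h

/-! ### the evaluation matrix -/

/-- **the evaluation matrix** `(b j (P i))_{i,j}`. -/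
def evMat {ι κ : Type*} (P : ι → Place K F) (b : κ → F) : Matrix ι κ K :=
  Matrix.of fun i j => evalAt (P i) (b j)

@[simp] theorem evMat_apply {ι κ : Type*} (P : ι → Place K F) (b : κ → F) (i : ι) (j : κ) :
    evMat P b i j = evalAt (P i) (b j) := rfl

/-- `(E c) i = (Σ c_j b_j)(P i)`. -/
theorem evMat_mulVec {ι κ : Type*} [Fintype κ] {P : ι → Place K F} {b : κ → F}
    (hP : ∀ i, (P i).deg = 1) (hb : ∀ i j, b j ∈ (P i).toValuationSubring) (c : κ → K) (i : ι) :
    (evMat P b).mulVec c i = evalAt (P i) (∑ j, c j • b j) := by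
  rw [evalAt_sum (hP i) Finset.univ c fun j _ => hb i j]
  simp only [Matrix.mulVec, dotProduct, evMat_apply]
  exact Finset.sum_congr rfl fun j _ => mul_comm _ _

/-! ### functions of `L(A)` vanishing on a reduced divisor -/

/-- the reduced divisor `Σ P_i`. -/
def sumDiv {ι : Type*} [Fintype ι] (P : ι → Place K F) : Divisor K F :=
  ∑ i, Finsupp.single (P i) (1 : ℤ)

theorem sumDiv_apply_of_injective {ι : Type*} [Fintype ι] {P : ι → Place K F}
    (hinj : Function.Injective P) (i : ι) : sumDiv P (P i) = 1 := by
  classical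
  unfold sumDiv
  rw [Finsupp.finsetSum_apply, Finset.sum_eq_single i]
  · simp
  · intro j _ hji
    rw [Finsupp.single_apply, if_neg fun h => hji (hinj h)]
  · intro h; exact absurd (Finset.mem_univ i) h

theorem sumDiv_apply_of_notMem {ι : Type*} [Fintype ι] {P : ι → Place K F} {v : Place K F}
    (hv : ∀ i, P i ≠ v) : sumDiv P v = 0 := by
  classical
  unfold sumDiv
  rw [Finsupp.finsetSum_apply]
  exact Finset.sum_eq_zero fun j _ => by rw [Finsupp.single_apply, if_neg (hv j)]

theorem degree_sumDiv {ι : Type*} [Fintype ι] {P : ι → Place K F} (hP : ∀ i, (P i).deg = 1) :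
    Divisor.degree (sumDiv P) = Fintype.card ι := by
  unfold sumDiv
  rw [map_sum]
  simp [Divisor.degree_single, hP]

/-- functions of `L(A)` are regular at the places outside the support of `A`. -/
theorem mem_valuationSubring_of_mem {A : Divisor K F} {f : F} (hf : f ∈ riemannRochSpace A)
    {v : Place K F} (hv : A v = 0) : f ∈ v.toValuationSubring := by
  rcases eq_or_ne f 0 with rfl | hf0
  · exact zero_mem _
  · have h := (mem_riemannRochSpace_iff.mp hf v).resolve_left hf0
    rw [hv, neg_zero] at h
    exact (PlaceB.ord_nonneg_iff v hf0).mp h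

/-- **`L(A - Σ P_i)` is the space of functions of `L(A)` vanishing at every `P_i`.** -/
theorem mem_sub_sumDiv_iff {ι : Type*} [Fintype ι] {P : ι → Place K F}
    (hinj : Function.Injective P) (hP : ∀ i, (P i).deg = 1) {A : Divisor K F}
    (hA : ∀ i, A (P i) = 0) {f : F} (hf : f ∈ riemannRochSpace A) :
    f ∈ riemannRochSpace (A - sumDiv P) ↔ ∀ i, evalAt (P i) f = 0 := by
  constructor
  · intro h i
    rw [evalAt_eq_zero_iff (hP i) (mem_valuationSubring_of_mem hf (hA i))]
    rcases mem_riemannRochSpace_iff.mp h (P i) with h0 | h1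
    · exact Or.inl h0
    · right
      rw [Finsupp.sub_apply, hA i, sumDiv_apply_of_injective hinj i] at h1
      omega
  · intro h
    rw [mem_riemannRochSpace_iff]
    intro v
    by_cases hv : ∃ i, P i = v
    · obtain ⟨i, rfl⟩ := hv
      rcases (evalAt_eq_zero_iff (hP i) (mem_valuationSubring_of_mem hf (hA i))).mp (h i) with
        h0 | h1
      · exact Or.inl h0
      · right
        rw [Finsupp.sub_apply, hA i, sumDiv_apply_of_injective hinj i]
        omega
    · push Not at hv
      rw [Finsupp.sub_apply, sumDiv_apply_of_notMem hv, sub_zero]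
      exact mem_riemannRochSpace_iff.mp hf v

theorem sum_smul_mem {A : Divisor K F} {κ : Type*} [Fintype κ] {b : κ → F}
    (hb : ∀ j, b j ∈ riemannRochSpace A) (c : κ → K) : ∑ j, c j • b j ∈ riemannRochSpace A :=
  sum_mem fun j _ => Submodule.smul_mem _ _ (hb j)

/-- **the kernel of the evaluation matrix is the coordinate space of `L(A - Σ P_i)`.** -/
theorem mulVec_eq_zero_iff {ι κ : Type*} [Fintype ι] [Fintype κ] {P : ι → Place K F}
    (hinj : Function.Injective P) (hP : ∀ i, (P i).deg = 1) {A : Divisor K F}
    (hA : ∀ i, A (P i) = 0) {b : κ → F} (hb : ∀ j, b j ∈ riemannRochSpace A) (c : κ → K) :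
    (evMat P b).mulVec c = 0 ↔ ∑ j, c j • b j ∈ riemannRochSpace (A - sumDiv P) := by
  rw [mem_sub_sumDiv_iff hinj hP hA (sum_smul_mem hb c), funext_iff]
  refine forall_congr' fun i => ?_
  rw [evMat_mulVec hP (fun i j => mem_valuationSubring_of_mem (hb j) (hA i)) c i]
  rfl

/-- **`E * Wᵀ = 0`** for every matrix `W` whose rows are the `b`-coordinates of functions of
`L(A - Σ P_i)`: the input of Plücker duality (complementary minors). -/
theorem evMat_mul_transpose_eq_zero {ι κ ρ : Type*} [Fintype ι] [Fintype κ]
    {P : ι → Place K F} (hinj : Function.Injective P) (hP : ∀ i, (P i).deg = 1)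
    {A : Divisor K F} (hA : ∀ i, A (P i) = 0) {b : κ → F} (hb : ∀ j, b j ∈ riemannRochSpace A)
    (W : Matrix ρ κ K) (hW : ∀ r, ∑ j, W r j • b j ∈ riemannRochSpace (A - sumDiv P)) :
    evMat P b * W.transpose = 0 := by
  ext i r
  have h := (mulVec_eq_zero_iff hinj hP hA hb (W r)).mpr (hW r)
  have := congrFun h i
  simpa [Matrix.mul_apply, Matrix.mulVec, dotProduct] using this

/-! ### rank -/

theorem riemannRochSpace_sub_sumDiv_le {ι : Type*} [Fintype ι] (P : ι → Place K F)
    (A : Divisor K F) : riemannRochSpace (A - sumDiv P) ≤ riemannRochSpace A := by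
  intro f hf v
  refine (hf v).trans (WithZero.exp_le_exp.mpr ?_)
  rw [Finsupp.sub_apply]
  have : 0 ≤ sumDiv P v := by
    unfold sumDiv
    rw [Finsupp.finsetSum_apply]
    exact Finset.sum_nonneg fun j _ => by
      classical
      rw [Finsupp.single_apply]; split_ifs <;> norm_num
  omega

section Rank

variable {ι κ : Type*} [Fintype ι] [Fintype κ] {P : ι → Place K F} {A : Divisor K F}

/-- the functions of a basis of `L(A)`, as elements of `F`. -/
def basisFun (b : Module.Basis κ K (riemannRochSpace A)) : κ → F := fun j => (b j : F)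

omit [Fintype κ] in
theorem basisFun_mem (b : Module.Basis κ K (riemannRochSpace A)) (j : κ) :
    basisFun b j ∈ riemannRochSpace A := (b j).2

theorem coe_equivFun_symm (b : Module.Basis κ K (riemannRochSpace A)) (c : κ → K) :
    ((b.equivFun.symm c : riemannRochSpace A) : F) = ∑ j, c j • basisFun b j := by
  rw [Module.Basis.equivFun_symm_apply, Submodule.coe_sum]
  rfl

/-- the kernel of the evaluation matrix of a basis of `L(A)` is the image of `L(A - Σ P_i)` under
the coordinate isomorphism. -/
theorem ker_mulVecLin_evMat (hinj : Function.Injective P) (hP : ∀ i, (P i).deg = 1)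
    (hA : ∀ i, A (P i) = 0) (b : Module.Basis κ K (riemannRochSpace A)) :
    LinearMap.ker (Matrix.mulVecLin (evMat P (basisFun b))) =
      ((riemannRochSpace (A - sumDiv P)).comap (riemannRochSpace A).subtype).map
        (b.equivFun : riemannRochSpace A ≃ₗ[K] (κ → K)).toLinearMap := by
  ext c
  rw [LinearMap.mem_ker, Matrix.mulVecLin_apply,
    mulVec_eq_zero_iff hinj hP hA (basisFun_mem b) c, Submodule.mem_map]
  constructor
  · intro h
    refine ⟨b.equivFun.symm c, ?_, ?_⟩
    · show ((b.equivFun.symm c : riemannRochSpace A) : F) ∈ riemannRochSpace (A - sumDiv P)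
      rw [coe_equivFun_symm]
      exact h
    · exact LinearEquiv.apply_symm_apply _ _
  · rintro ⟨x, hx, rfl⟩
    have hx' : (x : F) ∈ riemannRochSpace (A - sumDiv P) := hx
    have : (x : F) = ∑ j, (b.equivFun x) j • basisFun b j := by
      rw [← coe_equivFun_symm, LinearEquiv.symm_apply_apply]
    rw [LinearEquiv.coe_coe, ← this]
    exact hx'

/-- `dim ker evMat = ℓ(A - Σ P_i)`. -/
theorem finrank_ker_evMat (hinj : Function.Injective P) (hP : ∀ i, (P i).deg = 1)
    (hA : ∀ i, A (P i) = 0) (b : Module.Basis κ K (riemannRochSpace A)) :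
    Module.finrank K (LinearMap.ker (Matrix.mulVecLin (evMat P (basisFun b)))) =
      Module.finrank K (riemannRochSpace (A - sumDiv P)) := by
  rw [ker_mulVecLin_evMat hinj hP hA b, LinearEquiv.finrank_map_eq]
  exact (Submodule.comapSubtypeEquivOfLe (riemannRochSpace_sub_sumDiv_le P A)).finrank_eq

/-- **rank–nullity for the evaluation matrix**: `rank evMat + ℓ(A - Σ P_i) = ℓ(A)`. -/
theorem rank_evMat_add (hinj : Function.Injective P) (hP : ∀ i, (P i).deg = 1)
    (hA : ∀ i, A (P i) = 0) (b : Module.Basis κ K (riemannRochSpace A)) :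
    (evMat P (basisFun b)).rank + Module.finrank K (riemannRochSpace (A - sumDiv P)) =
      Fintype.card κ := by
  rw [← finrank_ker_evMat hinj hP hA b, Matrix.rank,
    LinearMap.finrank_range_add_finrank_ker, Module.finrank_fintype_fun_eq_card]

variable [FiniteResidues K F] [HasPrincipalDivisors K F] [Nonempty (Place K F)]

omit [FiniteResidues K F] [HasPrincipalDivisors K F] [Nonempty (Place K F)] in
/-- **the evaluation matrix has full row rank above the Riemann threshold**: if Riemann's theorem
`ℓ = deg + ℓ(0) - g` holds for `A` and for `A - Σ P_i`, then `rank evMat = d`. -/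
theorem rank_evMat_eq_card (hinj : Function.Injective P) (hP : ∀ i, (P i).deg = 1)
    (hA : ∀ i, A (P i) = 0) (b : Module.Basis κ K (riemannRochSpace A)) {c : ℤ}
    (hc : ∀ D : Divisor K F, c ≤ Divisor.degree D →
      (Module.finrank K (riemannRochSpace D) : ℤ) =
        Divisor.degree D + Module.finrank K (riemannRochSpace (0 : Divisor K F)) - genusFF K F)
    (hdeg : c + Fintype.card ι ≤ Divisor.degree A) :
    (evMat P (basisFun b)).rank = Fintype.card ι := by
  have h0 := rank_evMat_add hinj hP hA b
  have hdegD : Divisor.degree (A - sumDiv P) = Divisor.degree A - Fintype.card ι := by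
    rw [map_sub, degree_sumDiv hP]
  have h1 := hc A (by linarith)
  have h2 := hc (A - sumDiv P) (by rw [hdegD]; linarith)
  have h3 : (Fintype.card κ : ℤ) = Module.finrank K (riemannRochSpace A) := by
    rw [Module.finrank_eq_card_basis b]
  rw [hdegD] at h2
  have h0' : ((evMat P (basisFun b)).rank : ℤ) +
      Module.finrank K (riemannRochSpace (A - sumDiv P)) = Fintype.card κ := by exact_mod_cast h0
  have : ((evMat P (basisFun b)).rank : ℤ) = Fintype.card ι := by linarith
  exact_mod_cast this

variable (K F) in
/-- existential-threshold form (the shape of `RR/Final.exists_ell_eq`). -/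
theorem exists_threshold_rank_evMat : ∃ c : ℤ, ∀ {ι κ : Type*} [Fintype ι] [Fintype κ]
    (P : ι → Place K F) (A : Divisor K F), Function.Injective P → (∀ i, (P i).deg = 1) →
    (∀ i, A (P i) = 0) → ∀ b : Module.Basis κ K (riemannRochSpace A),
    c + Fintype.card ι ≤ Divisor.degree A → (evMat P (basisFun b)).rank = Fintype.card ι := by
  obtain ⟨c, hc⟩ := Fermat.Agent.RR.exists_ell_eq K F
  exact ⟨c, fun P A hinj hP hA b hdeg =>
    rank_evMat_eq_card hinj hP hA b (fun D hD => (hc D hD).1) hdeg⟩

omit [FiniteResidues K F] [HasPrincipalDivisors K F] [Nonempty (Place K F)] in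
/-- the rows of the evaluation matrix are linearly independent above the threshold. -/
theorem linearIndependent_rows {b : κ → F}
    (hr : (evMat P b).rank = Fintype.card ι) :
    LinearIndependent K (evMat P b).row := by
  rw [linearIndependent_iff_card_eq_finrank_span, ← hr, Matrix.rank_eq_finrank_span_row]
  rfl

omit [FiniteResidues K F] [HasPrincipalDivisors K F] [Nonempty (Place K F)] in
/-- **interpolation**: above the threshold every vector of values is attained on `L(A)`. -/
theorem exists_mem_evalAt_eq (hP : ∀ i, (P i).deg = 1)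
    (hA : ∀ i, A (P i) = 0) (b : Module.Basis κ K (riemannRochSpace A))
    (hr : (evMat P (basisFun b)).rank = Fintype.card ι) (y : ι → K) :
    ∃ f ∈ riemannRochSpace A, ∀ i, evalAt (P i) f = y i := by
  have hrange : LinearMap.range (Matrix.mulVecLin (evMat P (basisFun b))) = ⊤ := by
    apply Submodule.eq_top_of_finrank_eq
    rw [Module.finrank_fintype_fun_eq_card, ← hr]
    rfl
  have hy : y ∈ LinearMap.range (Matrix.mulVecLin (evMat P (basisFun b))) := by
    rw [hrange]; exact Submodule.mem_top
  obtain ⟨c, hcy⟩ := hy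
  refine ⟨∑ j, c j • basisFun b j, sum_smul_mem (basisFun_mem b) c, fun i => ?_⟩
  rw [← evMat_mulVec hP (fun i j => mem_valuationSubring_of_mem (basisFun_mem b j) (hA i)) c i]
  exact congrFun hcy i

end Rank

/-! ### Galois equivariance -/

section Galois

open SemilinearAut

theorem valueAt_smul_smul (g : SemilinearAut K F) {P : Place K F} {f : F} {a : K}
    (h : ValueAt P f a) : ValueAt (g • P) (g • f) (baseAut g a) := by
  rw [valueAt_iff_ord] at h ⊢
  have hsub : g • f - algebraMap K F (baseAut g a) = g • (f - algebraMap K F a) := by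
    rw [smul_sub, SemilinearAut.smul_algebraMap]
  rw [hsub]
  rcases h with h | h
  · left; rw [h, smul_zero]
  · right; rw [ord_smul]; exact h

/-- **evaluation is Galois-equivariant**: `(g f)(g P) = g (f(P))`. -/
theorem evalAt_smul_smul (g : SemilinearAut K F) {P : Place K F} (hP : P.deg = 1) {f : F}
    (hf : f ∈ P.toValuationSubring) : evalAt (g • P) (g • f) = baseAut g (evalAt P f) :=
  evalAt_eq_of_valueAt (valueAt_smul_smul g (valueAt_evalAt hP hf))

/-- if `g` permutes the places `P i` (by `π`) and fixes the functions `b j`, then `g` acts on the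
evaluation matrix by the row permutation `π`. -/
theorem evMat_map_baseAut {ι κ : Type*} (g : SemilinearAut K F) {P : ι → Place K F}
    {b : κ → F} (hP : ∀ i, (P i).deg = 1) (hb : ∀ i j, b j ∈ (P i).toValuationSubring)
    (π : ι → ι) (hπ : ∀ i, g • P i = P (π i)) (hg : ∀ j, g • b j = b j) :
    (evMat P b).map (baseAut g) = (evMat P b).submatrix π id := by
  ext i j
  rw [Matrix.map_apply, Matrix.submatrix_apply, evMat_apply, evMat_apply, id,
    ← evalAt_smul_smul g (hP i) (hb i j), hπ i, hg j]

/-- consequently every maximal minor is multiplied by the sign of the permutation. -/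
theorem det_submatrix_map_baseAut {ι κ : Type*} [Fintype ι] [DecidableEq ι]
    (g : SemilinearAut K F) {P : ι → Place K F} {b : κ → F} (hP : ∀ i, (P i).deg = 1)
    (hb : ∀ i j, b j ∈ (P i).toValuationSubring) (π : Equiv.Perm ι)
    (hπ : ∀ i, g • P i = P (π i)) (hg : ∀ j, g • b j = b j) (J : ι → κ) :
    baseAut g (((evMat P b).submatrix id J).det) =
      (Equiv.Perm.sign π : ℤ) * ((evMat P b).submatrix id J).det := by
  have h1 : baseAut g (((evMat P b).submatrix id J).det) =
      ((((evMat P b).submatrix id J)).map (baseAut g)).det := by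
    rw [← RingEquiv.coe_toRingHom, RingHom.map_det]
    rfl
  have h2 : (((evMat P b).submatrix id J)).map (baseAut g) =
      ((evMat P b).submatrix id J).submatrix π id := by
    have := evMat_map_baseAut g hP hb π hπ hg
    ext i j
    have h3 := congrFun (congrFun this i) (J j)
    simpa using h3
  rw [h1, h2, Matrix.det_permute]

end Galois

end Fermat.Agent.GR.H.PL.Ev
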