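/-
GATE-R / S17, node GR-H-PL (helper43): **the rational frame on `X₀(N)`** — part 1.

`F := ℚ̄(X₀(N))` (`modularFunctionFieldBar N`), `∞ := RatRep.cuspInf N` (the `q`-place),
`gal σ := arithmeticGalois (modularFunctionFieldFull N) σ` (coefficientwise action of `G_ℚ`).

* `IsRatFun f`  : `f` is fixed by `G_ℚ` (i.e. `f ∈ ℚ(X₀(N))`, `DescentFK.exists_coeffMap_eq_of_fixed`);
* `IsRatDiv D`  : the divisor `D` is fixed by `G_ℚ`;
* `I N m D : Submodule ℚ F` : the rational functions of `L(m ∞ - D)`; `V N m := I N m 0`;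
* `span_I`      : (Speiser) for rational `D`, the `ℚ̄`-span of `I N m D` is `L(m ∞ - D)`;
* `linearIndependent_Qb` : `ℚ`-independent rational functions are `ℚ̄`-independent;
* `finrank_I`   : `dim_ℚ I N m D = ℓ(m ∞ - D)`;
* `exists_threshold` : Riemann's theorem in this language.
-/
import Fermat.Agent.GR.W.RatRep
import Fermat.Agent.GL.Coh.DescentFK

set_option autoImplicit false

noncomputable section

open AlgebraicCurve ModularCurve

namespace Fermat.Agent.GR.H.PL

local notation "Qb" => AlgebraicClosure ℚ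
local notation "GQ" => (AlgebraicClosure ℚ ≃ₐ[ℚ] AlgebraicClosure ℚ)

variable (N : ℕ) [NeZero N]

/-- the function field `ℚ̄(X₀(N))` -/
abbrev FNb : Type := ↥(modularFunctionFieldBar N)

/-- the arithmetic Galois action -/
abbrev gal (σ : GQ) : SemilinearAut Qb (FNb N) := arithmeticGalois (modularFunctionFieldFull N) σ

/-- the cusp `∞` -/
abbrev oo : Place Qb (FNb N) := Fermat.Agent.GR.W.RatRep.cuspInf N

variable {N}

/-- rational functions -/
def IsRatFun (f : FNb N) : Prop := ∀ σ : GQ, gal N σ • f = f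

/-- rational divisors -/
def IsRatDiv (D : Divisor Qb (FNb N)) : Prop := ∀ σ : GQ, gal N σ • D = D

theorem gal_smul_def (σ : GQ) (f : FNb N) :
    gal N σ • f = arithmeticRingAut (modularFunctionFieldFull N) σ f := rfl

theorem gal_rat_smul (σ : GQ) (q : ℚ) (f : FNb N) : gal N σ • (q • f) = q • (gal N σ • f) := by
  rw [gal_smul_def, gal_smul_def]
  exact map_rat_smul (arithmeticRingAut (modularFunctionFieldFull N) σ) q f

/-- the `ℚ`-subspace (indeed subfield) of rational functions -/
def ratFun : Submodule ℚ (FNb N) where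
  carrier := {f | IsRatFun f}
  add_mem' := fun {a b} ha hb σ => by rw [smul_add, ha σ, hb σ]
  zero_mem' := fun σ => smul_zero _
  smul_mem' := fun q f hf σ => by rw [gal_rat_smul, hf σ]

theorem mem_ratFun {f : FNb N} : f ∈ ratFun (N := N) ↔ IsRatFun f := Iff.rfl

theorem IsRatFun.mul {f g : FNb N} (hf : IsRatFun f) (hg : IsRatFun g) : IsRatFun (f * g) :=
  fun σ => by rw [smul_mul', hf σ, hg σ]

theorem IsRatFun.one : IsRatFun (1 : FNb N) := fun σ => smul_one _

theorem IsRatFun.inv {f : FNb N} (hf : IsRatFun f) : IsRatFun f⁻¹ :=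
  fun σ => by rw [smul_inv'', hf σ]

/-- the divisor `m ∞ - D` -/
def twist (m : ℤ) (D : Divisor Qb (FNb N)) : Divisor Qb (FNb N) :=
  Finsupp.single (oo N) m - D

theorem gal_smul_oo (σ : GQ) : gal N σ • oo N = oo N :=
  Fermat.Agent.GR.W.RatRep.galois_smul_cuspInf N σ

theorem IsRatDiv.twist {D : Divisor Qb (FNb N)} (hD : IsRatDiv D) (m : ℤ) :
    IsRatDiv (twist m D) := fun σ => by
  unfold PL.twist
  rw [smul_sub, hD σ, SemilinearAut.smul_single, gal_smul_oo]

/-- **the rational functions of `L(m ∞ - D)`** -/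
def I (m : ℤ) (D : Divisor Qb (FNb N)) : Submodule ℚ (FNb N) :=
  ratFun ⊓ (riemannRochSpace (twist m D)).restrictScalars ℚ

theorem mem_I {m : ℤ} {D : Divisor Qb (FNb N)} {f : FNb N} :
    f ∈ I m D ↔ IsRatFun f ∧ f ∈ riemannRochSpace (twist m D) := Iff.rfl

/-- `V_m := L_ℚ(m ∞)` -/
abbrev V (m : ℤ) : Submodule ℚ (FNb N) := I (N := N) m 0

/-! ### Speiser: a rational Riemann–Roch space is spanned by its rational functions -/

open Fermat.Agent.GL.Coh.DescentFK Fermat.Agent.GL.Coh.SmoothDescent
  Fermat.Agent.GL.Coh.InvDescentFK in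
theorem span_I {D : Divisor Qb (FNb N)} (hD : IsRatDiv D) (m : ℤ) :
    Submodule.span Qb (I m D : Set (FNb N)) = riemannRochSpace (twist m D) := by
  classical
  refine le_antisymm (Submodule.span_le.2 fun f hf => (mem_I.1 hf).2) ?_
  intro v hv
  let F₀ := modularFunctionFieldFull N
  let H : Subgroup GQ := ⊤
  letI := galAction F₀ H
  set C : Subfield (FNb N) := constSub F₀ with hCdef
  have hC : ∀ (σ : H), ∀ c ∈ C, σ • c ∈ C := constSub_stable F₀ H
  -- `L(m∞ - D)` as a `C`-subspace
  let V' : Submodule ↥C (FNb N) :=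
    { carrier := riemannRochSpace (twist m D)
      zero_mem' := (riemannRochSpace (twist m D)).zero_mem
      add_mem' := (riemannRochSpace (twist m D)).add_mem
      smul_mem' := by
        rintro ⟨c, hc⟩ w hw
        obtain ⟨a, rfl⟩ := (mem_constSub F₀).mp hc
        show algebraMap Qb (FNb N) a * w ∈ riemannRochSpace (twist m D)
        rw [← Algebra.smul_def]
        exact (riemannRochSpace (twist m D)).smul_mem a hw }
  have hV : ∀ (σ : H), ∀ w ∈ V', σ • w ∈ V' := by
    intro σ w hw
    have h1 := Fermat.Agent.GJ.Desc.smul_mem_riemannRochSpace (gal N (σ : GQ)) hw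
    rw [hD.twist m (σ : GQ)] at h1
    exact h1
  obtain ⟨Y, hYfin, hYC, hYstab, hYv⟩ := smooth F₀ H v
  have hsp := mem_span_invariants C hC V' hV v hv Y hYfin hYC hYstab hYv
  -- convert the `C`-span into a `ℚ̄`-span
  refine Submodule.span_induction (p := fun x _ => x ∈ Submodule.span Qb (I m D : Set (FNb N)))
    ?_ ?_ ?_ ?_ hsp
  · rintro w ⟨hwV, hwinv⟩
    refine Submodule.subset_span (mem_I.2 ⟨fun σ => ?_, hwV⟩)
    exact hwinv ⟨σ, Subgroup.mem_top σ⟩
  · exact Submodule.zero_mem _
  · intro x y _ _ hx hy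
    exact Submodule.add_mem _ hx hy
  · rintro ⟨c, hc⟩ x _ hx
    obtain ⟨a, rfl⟩ := (mem_constSub F₀).mp hc
    have : (⟨algebraMap Qb (FNb N) a, hc⟩ : ↥C) • x = a • x := by
      rw [Algebra.smul_def a]; rfl
    rw [this]
    exact Submodule.smul_mem _ a hx

/-! ### Linear disjointness and dimensions -/

open Fermat.Agent.GL.Coh.DescentFK in
/-- `ℚ`-independent rational functions are `ℚ̄`-independent -/
theorem linearIndependent_Qb {ι : Type*} (f : ι → FNb N) (hf : ∀ i, IsRatFun (f i))
    (hli : LinearIndependent ℚ f) : LinearIndependent Qb f := by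
  classical
  refine linearIndependent_of_fixed (modularFunctionFieldFull N) (⊤ : Subgroup GQ)
    (⊥ : IntermediateField ℚ Qb) ?_ f (fun i σ _ => hf i σ) ?_
  · intro a ha
    have h1 : a ∈ (algebraMap ℚ Qb).range := by
      have : Algebra.IsAlgebraic ℚ Qb := AlgebraicClosure.isAlgebraic ℚ
      have : IsAlgClosure ℚ Qb := ⟨inferInstance, inferInstance⟩
      have : IsGalois ℚ Qb := IsAlgClosure.isGalois ℚ _
      exact (InfiniteGalois.mem_range_algebraMap_iff_fixed a).mpr
        (fun σ => ha σ (Subgroup.mem_top σ))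
    obtain ⟨q, rfl⟩ := h1
    exact IntermediateField.algebraMap_mem _ q
  · intro s g hg hsum i his
    have hq : ∀ i, ∃ q : ℚ, algebraMap ℚ Qb q = g i := fun i =>
      IntermediateField.mem_bot.mp (hg i)
    choose q hq using hq
    have h2 : ∑ i ∈ s, q i • f i = 0 := by
      rw [← hsum]
      refine Finset.sum_congr rfl fun i _ => ?_
      rw [← hq i, ← IsScalarTower.algebraMap_apply, Algebra.smul_def]
    have h3 := (linearIndependent_iff'.mp hli) s q h2 i his
    rw [← hq i, h3, map_zero]

instance (D : Divisor Qb (FNb N)) : FiniteDimensional Qb (riemannRochSpace D) := by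
  have := Fermat.Agent.RR.ModularBar.finiteResidues N
  have := Fermat.Agent.RR.ModularBar.hasPrincipalDivisors N
  have := Fermat.Agent.RR.ModularBar.nonempty_place N
  infer_instance

/-- `dim_ℚ I m D = ℓ(m ∞ - D)` for rational `D` -/
theorem finrank_I {D : Divisor Qb (FNb N)} (hD : IsRatDiv D) (m : ℤ) :
    Module.finrank ℚ (I m D) = Module.finrank Qb (riemannRochSpace (twist m D)) := by
  classical
  let b := Module.Free.chooseBasis ℚ (I m D)
  have hmemL : ∀ i, ((b i : I m D) : FNb N) ∈ riemannRochSpace (twist m D) := fun i =>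
    (mem_I.1 (b i).2).2
  have hli : LinearIndependent Qb (fun i => ((b i : I m D) : FNb N)) := by
    refine linearIndependent_Qb _ (fun i => (mem_I.1 (b i).2).1) ?_
    have := b.linearIndependent
    exact this.map' (I m D).subtype (Submodule.ker_subtype _)
  have hli' : LinearIndependent Qb
      (fun i => (⟨(b i : FNb N), hmemL i⟩ : riemannRochSpace (twist m D))) := by
    refine LinearIndependent.of_comp (riemannRochSpace (twist m D)).subtype ?_
    exact hli
  have hspan : ⊤ ≤ Submodule.span Qb (Set.range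
      (fun i => (⟨(b i : FNb N), hmemL i⟩ : riemannRochSpace (twist m D)))) := by
    rintro ⟨x, hx⟩ -
    rw [← span_I hD m] at hx
    have hI : (I m D : Set (FNb N)) ⊆ ((Submodule.span Qb (Set.range
        (fun i => (⟨(b i : FNb N), hmemL i⟩ : riemannRochSpace (twist m D))))).map
          (riemannRochSpace (twist m D)).subtype : Submodule Qb (FNb N)) := by
      intro y hy
      have hy' : (⟨y, hy⟩ : I m D) ∈ Submodule.span ℚ (Set.range b) := by
        rw [b.span_eq]; trivial
      have key : ∀ z : I m D, z ∈ Submodule.span ℚ (Set.range b) →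
          (z : FNb N) ∈ ((Submodule.span Qb (Set.range
            (fun i => (⟨(b i : FNb N), hmemL i⟩ : riemannRochSpace (twist m D))))).map
              (riemannRochSpace (twist m D)).subtype : Submodule Qb (FNb N)) := by
        intro z hz
        induction hz using Submodule.span_induction with
        | mem z hz =>
          obtain ⟨i, rfl⟩ := hz
          exact ⟨⟨(b i : FNb N), hmemL i⟩, Submodule.subset_span ⟨i, rfl⟩, rfl⟩
        | zero => exact Submodule.zero_mem _
        | add x y _ _ hx hy => exact Submodule.add_mem _ hx hy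
        | smul q x _ hx =>
          have : ((q • x : I m D) : FNb N) = (algebraMap ℚ Qb q) • (x : FNb N) := by
            rw [Submodule.coe_smul, algebraMap_smul]
          rw [this]
          exact Submodule.smul_mem _ _ hx
      exact key ⟨y, hy⟩ hy'
    have h2 := Submodule.span_le.2 hI hx
    obtain ⟨z, hz, hzx⟩ := h2
    have : z = ⟨x, by rw [span_I hD m] at hx; exact hx⟩ := Subtype.ext hzx
    rw [← this]
    exact hz
  let b' : Module.Basis _ Qb (riemannRochSpace (twist m D)) := Module.Basis.mk hli' hspan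
  haveI : Fintype (Module.Free.ChooseBasisIndex ℚ (I m D)) :=
    FiniteDimensional.fintypeBasisIndex b'
  rw [Module.finrank_eq_card_basis b, Module.finrank_eq_card_basis b']

/-- `I m D` is finite dimensional over `ℚ` for rational `D` -/
theorem finiteDimensional_I (D : Divisor Qb (FNb N)) (m : ℤ) :
    FiniteDimensional ℚ (I m D) := by
  classical
  by_contra h
  -- an infinite-dimensional space contains arbitrarily large independent families
  have h0 : Module.finrank ℚ (I m D) = 0 := Module.finrank_of_not_finite h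
  obtain ⟨n, hn⟩ : ∃ n : ℕ, Module.finrank Qb (riemannRochSpace (twist m D)) < n :=
    ⟨_, Nat.lt_succ_self _⟩
  have hrank : (n : Cardinal) ≤ Module.rank ℚ (I m D) := by
    have : Cardinal.aleph0 ≤ Module.rank ℚ (I m D) := by
      by_contra hlt
      exact h (Module.rank_lt_aleph0_iff.mp (not_le.mp hlt))
    exact (Cardinal.natCast_lt_aleph0 (n := n)).le.trans this
  obtain ⟨s, hs, hsli⟩ := exists_finset_linearIndependent_of_le_rank hrank
  have hli : LinearIndependent Qb (fun i : s => ((i : I m D) : FNb N)) := by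
    refine linearIndependent_Qb _ (fun i => (mem_I.1 (i : I m D).2).1) ?_
    exact hsli.map' (I m D).subtype (Submodule.ker_subtype _)
  have hli' : LinearIndependent Qb
      (fun i : s => (⟨((i : I m D) : FNb N), (mem_I.1 (i : I m D).2).2⟩ :
        riemannRochSpace (twist m D))) :=
    LinearIndependent.of_comp (riemannRochSpace (twist m D)).subtype hli
  have := hli'.fintype_card_le_finrank
  rw [Fintype.card_coe, hs] at this
  omega

instance (D : Divisor Qb (FNb N)) (m : ℤ) : FiniteDimensional ℚ (I m D) :=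
  finiteDimensional_I D m

theorem degree_twist (m : ℤ) (D : Divisor Qb (FNb N)) :
    Divisor.degree (twist m D) = m - Divisor.degree D := by
  unfold twist
  rw [map_sub, Divisor.degree_single, Fermat.Agent.GR.W.RatRep.deg_cuspInf N]
  simp

variable (N) in
/-- the genus of `X₀(N)` -/
abbrev genus : ℕ := genusFF Qb (FNb N)

variable (N) in
/-- **Riemann's theorem in the rational frame**: there is a threshold `c` such that for every
rational divisor `D` and every `m ≥ deg D + c`, `dim_ℚ I m D = m - deg D + 1 - g`. -/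
theorem exists_threshold : ∃ c : ℤ, ∀ (m : ℤ) (D : Divisor Qb (FNb N)), IsRatDiv D →
    c + Divisor.degree D ≤ m →
      (Module.finrank ℚ (I m D) : ℤ) = m - Divisor.degree D + 1 - genus N := by
  have := Fermat.Agent.RR.ModularBar.finiteResidues N
  have := Fermat.Agent.RR.ModularBar.hasPrincipalDivisors N
  have := Fermat.Agent.RR.ModularBar.nonempty_place N
  obtain ⟨c, hc⟩ := Fermat.Agent.RR.exists_ell_eq Qb (FNb N)
  refine ⟨c, fun m D hD hm => ?_⟩
  have h1 := (hc (twist m D) (by rw [degree_twist]; linarith)).1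
  rw [finrank_I hD m, h1, degree_twist, Fermat.Agent.GR.W.RatRep.finrank_L_zero N]
  push_cast
  ring

/-! ### Multiplication: `u · I_k(E) = I_{j+k}(E + (u)_0)` -/

open Fermat.Agent.RR.Bound

instance : HasPrincipalDivisors Qb (FNb N) := Fermat.Agent.RR.ModularBar.hasPrincipalDivisors N

/-- `σ (div u) = div (σ u)` -/
theorem gal_smul_divOf (σ : GQ) (u : FNb N) :
    gal N σ • divOf Qb u = divOf Qb (gal N σ • u) := by
  rcases eq_or_ne u 0 with rfl | hu
  · simp
  have hu' : gal N σ • u ≠ 0 := (smul_ne_zero_iff_ne _).mpr hu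
  ext v
  rw [SemilinearAut.divisor_smul_apply, divOf_apply hu, divOf_apply hu',
    Fermat.Agent.GJ.Desc.ord_smul_eq]

/-- the divisor of zeros of `u ∈ L(j ∞)`: `div u + j ∞` -/
def div0 (j : ℤ) (u : FNb N) : Divisor Qb (FNb N) := divOf Qb u + Finsupp.single (oo N) j

theorem isRatDiv_div0 {u : FNb N} (hu : IsRatFun u) (j : ℤ) : IsRatDiv (div0 j u) := fun σ => by
  unfold div0
  rw [smul_add, gal_smul_divOf, hu σ, SemilinearAut.smul_single, gal_smul_oo]

theorem degree_div0 (j : ℤ) (u : FNb N) : Divisor.degree (div0 j u) = j := by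
  unfold div0
  rw [map_add, degree_divOf, Divisor.degree_single, Fermat.Agent.GR.W.RatRep.deg_cuspInf N]
  simp

theorem div0_nonneg {j : ℤ} {u : FNb N} (hu : u ∈ V (N := N) j) (hu0 : u ≠ 0) :
    0 ≤ div0 j u := by
  have h := Fermat.Agent.RR.EffRep.nonneg_add_divOf (mem_I.1 hu).2 hu0
  unfold twist at h
  unfold div0
  rw [sub_zero] at h
  rwa [add_comm]

theorem twist_add_div0 (j k : ℤ) (E : Divisor Qb (FNb N)) (u : FNb N) :
    twist (j + k) (E + div0 j u) = twist k E + -divOf Qb u := by
  unfold twist div0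
  rw [Finsupp.single_add]
  abel

theorem IsRatDiv.add {D E : Divisor Qb (FNb N)} (hD : IsRatDiv D) (hE : IsRatDiv E) :
    IsRatDiv (D + E) := fun σ => by rw [smul_add, hD σ, hE σ]

theorem isRatDiv_zero : IsRatDiv (0 : Divisor Qb (FNb N)) := fun σ => smul_zero _

theorem isRatDiv_single_oo (j : ℤ) : IsRatDiv (Finsupp.single (oo N) j) := fun σ => by
  rw [SemilinearAut.smul_single, gal_smul_oo]

theorem mul_mem_I {j k : ℤ} {E : Divisor Qb (FNb N)} {u f : FNb N} (hu : IsRatFun u)
    (hu0 : u ≠ 0) (hf : f ∈ I k E) : u * f ∈ I (j + k) (E + div0 j u) := by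
  refine mem_I.2 ⟨hu.mul (mem_I.1 hf).1, ?_⟩
  rw [twist_add_div0]
  have h := Fermat.Agent.RR.Inst.mul_inv_mem_riemannRochSpace (f := u⁻¹) (inv_ne_zero hu0)
    (E := -divOf Qb u) (fun v => by
      rw [Finsupp.neg_apply, divOf_apply hu0, Place.ord_inv]) (mem_I.1 hf).2
  rwa [inv_inv, mul_comm] at h

theorem inv_mul_mem_I {j k : ℤ} {E : Divisor Qb (FNb N)} {u g : FNb N} (hu : IsRatFun u)
    (hu0 : u ≠ 0) (hg : g ∈ I (j + k) (E + div0 j u)) : u⁻¹ * g ∈ I k E := by
  refine mem_I.2 ⟨hu.inv.mul (mem_I.1 hg).1, ?_⟩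
  have h1 := (mem_I.1 hg).2
  rw [twist_add_div0] at h1
  have h := Fermat.Agent.RR.Inst.mul_mem_riemannRochSpace (f := u⁻¹) (inv_ne_zero hu0)
    (E := -divOf Qb u) (fun v => by
      rw [Finsupp.neg_apply, divOf_apply hu0, Place.ord_inv]) h1
  rwa [mul_comm] at h

/-- **`u · I_k(E) = I_{j+k}(E + (u)_0)`** for a rational function `u ≠ 0` -/
theorem map_mul_I {j k : ℤ} {E : Divisor Qb (FNb N)} {u : FNb N} (hu : IsRatFun u)
    (hu0 : u ≠ 0) :
    (I k E).map (LinearMap.mulLeft ℚ u) = I (j + k) (E + div0 j u) := by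
  ext g
  constructor
  · rintro ⟨f, hf, rfl⟩
    exact mul_mem_I hu hu0 hf
  · intro hg
    refine ⟨u⁻¹ * g, inv_mul_mem_I hu hu0 hg, ?_⟩
    show u * (u⁻¹ * g) = g
    rw [← mul_assoc, mul_inv_cancel₀ hu0, one_mul]

/-- `I_m(D)` only grows with `m` and shrinks with `D` -/
theorem I_mono {m m' : ℤ} {D D' : Divisor Qb (FNb N)} (hm : m ≤ m') (hD : D' ≤ D) :
    I m D ≤ I m' D' := by
  intro f hf
  refine mem_I.2 ⟨(mem_I.1 hf).1, ?_⟩
  refine Fermat.Agent.RR.Adelic.riemannRochSpace_mono ?_ (mem_I.1 hf).2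
  unfold twist
  refine sub_le_sub ?_ hD
  rw [Finsupp.le_def]
  intro v
  by_cases hv : v = oo N
  · subst hv; simpa using hm
  · rw [Finsupp.single_eq_of_ne hv, Finsupp.single_eq_of_ne hv]

theorem I_le_V {m : ℤ} {D : Divisor Qb (FNb N)} (hD : 0 ≤ D) : I m D ≤ V (N := N) m :=
  I_mono le_rfl hD

end Fermat.Agent.GR.H.PL
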