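/-
GATE-R / S17, node GR-H-PL-BASE (helper1, 2nd seat of helper43's PL): the BASE LOCUS lemma.

Above the Riemann threshold a divisor is determined by its Riemann–Roch space:

* `riemannRochSpace_sub_single_ne` : if `c + v.deg ≤ deg A` (`c` the threshold of
  `RR.exists_ell_eq`) then `L(A − v) ≠ L(A)`;
* `eq_of_riemannRochSpace_eq` : if `deg A, deg A' ≥ c + v.deg` for all places `v` and
  `L(A) = L(A')` then `A = A'`;
* `eq_of_riemannRochSpace_sub_eq` : the consumer form `L(E − D) = L(E − D') → D = D'`
  (`E = m • ∞`);
* `eq_of_span_eq` : the rational form used by PL: `I, I'` subsets of `F` whose `K`-spans are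
  `L(E − D)`, `L(E − D')` (Speiser, a hypothesis here) and `I = I'` ⟹ `D = D'`.

Imports RR/Final (abstract `K`, `F`) + RR/ModularBar (the instance `modularBar_exists_threshold`
for `ℚ̄(X₀(N))`, where every place has degree one).
-/
import Fermat.Agent.RR.Final
import Fermat.Agent.RR.ModularBar

set_option autoImplicit false

open AlgebraicCurve

namespace Fermat.Agent.GR.H.PL.BaseLocus

open Fermat.Agent.RR Fermat.Agent.RRh45

variable {K F : Type*} [Field K] [Field F] [Algebra K F]
variable [FiniteResidues K F] [HasPrincipalDivisors K F] [Nonempty (Place K F)]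

/-- The defining property of a Riemann threshold (the `c` of `RR.exists_ell_eq`). -/
def IsThreshold (c : ℤ) : Prop :=
  ∀ D : Divisor K F, c ≤ Divisor.degree D →
    (Module.finrank K (riemannRochSpace D) : ℤ) =
      Divisor.degree D + Module.finrank K (riemannRochSpace (0 : Divisor K F)) - genusFF K F

variable (K F) in
theorem exists_isThreshold : ∃ c : ℤ, IsThreshold (K := K) (F := F) c := by
  obtain ⟨c, hc⟩ := exists_ell_eq K F
  exact ⟨c, fun D hD => (hc D hD).1⟩

omit [FiniteResidues K F] [HasPrincipalDivisors K F] [Nonempty (Place K F)] in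
theorem IsThreshold.mono {c c' : ℤ} (hc : IsThreshold (K := K) (F := F) c) (h : c ≤ c') :
    IsThreshold (K := K) (F := F) c' := fun D hD => hc D (h.trans hD)

omit [HasPrincipalDivisors K F] [Nonempty (Place K F)] in
/-- One more vanishing condition really drops the Riemann–Roch space above the threshold. -/
theorem riemannRochSpace_sub_single_ne {c : ℤ} (hc : IsThreshold (K := K) (F := F) c)
    (A : Divisor K F) (v : Place K F) (hA : c + v.deg ≤ Divisor.degree A) :
    riemannRochSpace (A - Finsupp.single v 1) ≠ riemannRochSpace A := by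
  intro h
  have hpos : (0 : ℤ) < v.deg := by exact_mod_cast deg_pos v
  have hdeg : Divisor.degree (A - Finsupp.single v 1) = Divisor.degree A - v.deg := by
    rw [map_sub, Divisor.degree_single, one_mul]
  have h1 := hc A (by linarith)
  have h2 := hc (A - Finsupp.single v 1) (by rw [hdeg]; linarith)
  rw [h, hdeg] at h2
  linarith

omit [FiniteResidues K F] [HasPrincipalDivisors K F] [Nonempty (Place K F)] in
/-- If every element of `L(A')` satisfies the bound of `A` at `v` and `A v < A' v`, then
`L(A' − v) = L(A')`. -/
theorem riemannRochSpace_sub_single_eq_of_le {A A' : Divisor K F} (v : Place K F)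
    (hsub : riemannRochSpace A' ≤ riemannRochSpace A) (hv : A v < A' v) :
    riemannRochSpace (A' - Finsupp.single v 1) = riemannRochSpace A' := by
  classical
  apply le_antisymm
  · apply riemannRochSpace_mono
    intro w
    by_cases hw : w = v
    · subst hw; simp
    · simp [hw]
  · intro f hf
    rw [mem_riemannRochSpace_iff]
    intro w
    by_cases hf0 : f = 0
    · exact Or.inl hf0
    right
    have hfA := ((mem_riemannRochSpace_iff.mp (hsub hf)) w).resolve_left hf0
    have hfA' := ((mem_riemannRochSpace_iff.mp hf) w).resolve_left hf0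
    by_cases hw : w = v
    · subst hw
      have : (A' - Finsupp.single w 1 : Divisor K F) w = A' w - 1 := by simp
      rw [this]
      linarith
    · have : (A' - Finsupp.single v 1 : Divisor K F) w = A' w := by
        simp [Ne.symm hw]
      rw [this]; exact hfA'

omit [HasPrincipalDivisors K F] [Nonempty (Place K F)] in
/-- **Base locus lemma.** Above the Riemann threshold a divisor is determined by its
Riemann–Roch space. -/
theorem eq_of_riemannRochSpace_eq {c : ℤ} (hc : IsThreshold (K := K) (F := F) c)
    {A A' : Divisor K F} (hA : ∀ v : Place K F, c + v.deg ≤ Divisor.degree A)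
    (hA' : ∀ v : Place K F, c + v.deg ≤ Divisor.degree A')
    (h : riemannRochSpace A = riemannRochSpace A') : A = A' := by
  by_contra hne
  obtain ⟨v, hv⟩ : ∃ v, A v ≠ A' v := by
    by_contra hall
    exact hne (Finsupp.ext fun v => not_not.mp fun hv => hall ⟨v, hv⟩)
  rcases lt_or_gt_of_ne hv with hlt | hgt
  · exact riemannRochSpace_sub_single_ne hc A' v (hA' v)
      (riemannRochSpace_sub_single_eq_of_le v h.ge hlt)
  · exact riemannRochSpace_sub_single_ne hc A v (hA v)
      (riemannRochSpace_sub_single_eq_of_le v h.le hgt)

omit [HasPrincipalDivisors K F] [Nonempty (Place K F)] in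
/-- Consumer form: `L(E − D) = L(E − D') → D = D'`. -/
theorem eq_of_riemannRochSpace_sub_eq {c : ℤ} (hc : IsThreshold (K := K) (F := F) c)
    (E : Divisor K F) {D D' : Divisor K F}
    (hD : ∀ v : Place K F, c + v.deg + Divisor.degree D ≤ Divisor.degree E)
    (hD' : ∀ v : Place K F, c + v.deg + Divisor.degree D' ≤ Divisor.degree E)
    (h : riemannRochSpace (E - D) = riemannRochSpace (E - D')) : D = D' := by
  have := eq_of_riemannRochSpace_eq hc (A := E - D) (A' := E - D')
    (fun v => by rw [map_sub]; linarith [hD v]) (fun v => by rw [map_sub]; linarith [hD' v]) h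
  exact sub_right_injective this

omit [HasPrincipalDivisors K F] [Nonempty (Place K F)] in
/-- Rational form for PL: if the `K`-spans of two sets `I`, `I'` of functions are `L(E − D)` and
`L(E − D')` (Speiser) and `I = I'`, then `D = D'`. -/
theorem eq_of_span_eq {c : ℤ} (hc : IsThreshold (K := K) (F := F) c)
    (E : Divisor K F) {D D' : Divisor K F}
    (hD : ∀ v : Place K F, c + v.deg + Divisor.degree D ≤ Divisor.degree E)
    (hD' : ∀ v : Place K F, c + v.deg + Divisor.degree D' ≤ Divisor.degree E)
    {I I' : Set F} (hI : Submodule.span K I = riemannRochSpace (E - D))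
    (hI' : Submodule.span K I' = riemannRochSpace (E - D')) (h : I = I') : D = D' :=
  eq_of_riemannRochSpace_sub_eq hc E hD hD' (by rw [← hI, ← hI', h])

/-! ### The instance for `ℚ̄(X₀(N))` -/

section ModularBar

open ModularCurve

variable (N : ℕ) [NeZero N]

/-- **Base locus lemma for `ℚ̄(X₀(N))`**: there is a threshold `c` such that for all divisors
`E, D, D'` with `c + deg D ≤ deg E`, `c + deg D' ≤ deg E`: `L(E − D) = L(E − D') → D = D'`. -/
theorem modularBar_exists_threshold :
    ∃ c : ℤ, ∀ E D D' : Divisor (AlgebraicClosure ℚ) ↥(modularFunctionFieldBar N),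
      c + Divisor.degree D ≤ Divisor.degree E → c + Divisor.degree D' ≤ Divisor.degree E →
      riemannRochSpace (E - D) = riemannRochSpace (E - D') → D = D' := by
  have := Fermat.Agent.RR.ModularBar.hasPrincipalDivisors N
  have := Fermat.Agent.RR.ModularBar.finiteResidues N
  have := Fermat.Agent.RR.ModularBar.nonempty_place N
  obtain ⟨c, hc⟩ := exists_isThreshold (AlgebraicClosure ℚ) ↥(modularFunctionFieldBar N)
  refine ⟨c + 1, fun E D D' hD hD' h => eq_of_riemannRochSpace_sub_eq hc E ?_ ?_ h⟩
  · intro v
    rw [Fermat.Agent.RR.ModularBar.deg_eq_one N v]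
    push_cast
    linarith
  · intro v
    rw [Fermat.Agent.RR.ModularBar.deg_eq_one N v]
    push_cast
    linarith

end ModularBar

end Fermat.Agent.GR.H.PL.BaseLocus
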