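/-
GATE-R / S17, node GR-H-PL (helper43): **the rational frame on `X₀(N)`** — part 2: coordinates.

* `dV N m`, `bV N m`   : dimension and a fixed `ℚ`-basis of `V_m = L_ℚ(m ∞)`;
* `coordFun N m f`     : the `bV`-coordinates of `f` (`0` outside `V_m`), `hV N m f` its height;
* `dI N m D`, `bI N m D`, `coordMat N m D` : a `ℚ`-basis of `I_m(D) = L_ℚ(m ∞ - D)` and its
  coordinate matrix (`dI × dV`, rows independent for `D ≥ 0`);
* `Hpl N m D := logHeight (minorsAll (coordMat N m D))` : **the Plücker height**;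
* `logHeight_minorsAll_eq_Hpl` : ANY basis matrix of `I_m(D)` has the same Plücker height;
* `sc N j k`           : structure constants of `V_j × V_k → V_{j+k}`, `coordFun_mul`;
* `H_add_div0`         : `H_{j+k}(E + (u)_0) = logHeight (minorsAll (coordMat k E * (mulMat sc u)ᵀ))`
  — the exact shape of helper17's multiplication lemma `GR/H/MulLemma`.
-/
import Fermat.Agent.GR.H.PL.Rat
import Fermat.Agent.GR.H.MulLemma
import Fermat.Agent.GR.H.Flag

set_option autoImplicit false

noncomputable section

open AlgebraicCurve ModularCurve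
open Fermat.Agent.GR.H.CauchyBinet Fermat.Agent.GR.H.MulLemma
open scoped Matrix

namespace Fermat.Agent.GR.H.PL

local notation "Qb" => AlgebraicClosure ℚ
local notation "GQ" => (AlgebraicClosure ℚ ≃ₐ[ℚ] AlgebraicClosure ℚ)

variable (N : ℕ) [NeZero N]

/-- `dim_ℚ V_m` -/
def dV (m : ℤ) : ℕ := Module.finrank ℚ (V (N := N) m)

/-- the chain `V_0 ⊆ V_1 ⊆ ...` indexed by natural numbers -/
def Vnat (k : ℕ) : Submodule ℚ (FNb N) := V (N := N) (k : ℤ)

theorem Vnat_mono : Monotone (Vnat N) := fun _ _ h =>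
  I_mono (by exact_mod_cast h) le_rfl

instance (k : ℕ) : FiniteDimensional ℚ (Vnat N k) := by unfold Vnat; infer_instance

/-- a fixed `ℚ`-basis of `V_m`: for `m = (k : ℕ)` the FLAG basis of the chain `V_0 ⊆ V_1 ⊆ ...`
(helper95's `Flag.flagBasis`: the basis of `V_k` is the initial segment of the basis of `V_l`,
`k ≤ l`, under `Fin.castLE`), for negative `m` any basis. -/
def bV (m : ℤ) : Module.Basis (Fin (dV N m)) ℚ (V (N := N) m) :=
  match m with
  | Int.ofNat k => Fermat.Agent.GR.H.Flag.flagBasis (Vnat N) (Vnat_mono N) k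
  | Int.negSucc _ => Module.finBasis ℚ _

theorem bV_natCast (k : ℕ) :
    bV N (k : ℤ) = Fermat.Agent.GR.H.Flag.flagBasis (Vnat N) (Vnat_mono N) k := rfl

/-- the coordinates of `f ∈ V_m` in the basis `bV` (and `0` if `f ∉ V_m`) -/
def coordFun (m : ℤ) (f : FNb N) : Fin (dV N m) → ℚ := by
  classical
  exact if h : f ∈ V (N := N) m then (bV N m).equivFun ⟨f, h⟩ else 0

variable {N}

theorem coordFun_of_mem {m : ℤ} {f : FNb N} (h : f ∈ V (N := N) m) :
    coordFun N m f = (bV N m).equivFun ⟨f, h⟩ := by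
  unfold coordFun
  rw [dif_pos h]

theorem coordFun_add {m : ℤ} {f g : FNb N} (hf : f ∈ V (N := N) m) (hg : g ∈ V (N := N) m) :
    coordFun N m (f + g) = coordFun N m f + coordFun N m g := by
  rw [coordFun_of_mem hf, coordFun_of_mem hg, coordFun_of_mem (Submodule.add_mem _ hf hg),
    ← map_add]
  rfl

theorem coordFun_smul {m : ℤ} (q : ℚ) {f : FNb N} (hf : f ∈ V (N := N) m) :
    coordFun N m (q • f) = q • coordFun N m f := by
  rw [coordFun_of_mem hf, coordFun_of_mem (Submodule.smul_mem _ q hf), ← map_smul]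
  rfl

theorem coordFun_sum {m : ℤ} {ι : Type*} (s : Finset ι) (f : ι → FNb N)
    (hf : ∀ i ∈ s, f i ∈ V (N := N) m) :
    coordFun N m (∑ i ∈ s, f i) = ∑ i ∈ s, coordFun N m (f i) := by
  classical
  induction s using Finset.induction_on with
  | empty =>
    rw [Finset.sum_empty, Finset.sum_empty, coordFun_of_mem (Submodule.zero_mem _)]
    exact map_zero _
  | insert a s ha ih =>
    rw [Finset.sum_insert ha, Finset.sum_insert ha,
      coordFun_add (hf a (Finset.mem_insert_self a s))
        (Submodule.sum_mem _ fun i hi => hf i (Finset.mem_insert_of_mem hi)),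
      ih fun i hi => hf i (Finset.mem_insert_of_mem hi)]

theorem coordFun_bV (m : ℤ) (j : Fin (dV N m)) :
    coordFun N m ((bV N m j : V (N := N) m) : FNb N) = Pi.single j 1 := by
  classical
  rw [coordFun_of_mem (bV N m j).2]
  have : (⟨((bV N m j : V (N := N) m) : FNb N), (bV N m j).2⟩ : V (N := N) m) = bV N m j := rfl
  rw [this]
  ext i
  rw [Module.Basis.equivFun_self]
  simp [Pi.single_apply, eq_comm]

/-- reconstruction of `f ∈ V_m` from its coordinates -/
theorem sum_coordFun_smul {m : ℤ} {f : FNb N} (hf : f ∈ V (N := N) m) :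
    ∑ j, coordFun N m f j • ((bV N m j : V (N := N) m) : FNb N) = f := by
  rw [coordFun_of_mem hf]
  have h := (bV N m).sum_equivFun ⟨f, hf⟩
  have h2 := congrArg (Submodule.subtype _) h
  rw [map_sum] at h2
  simpa using h2

theorem coordFun_injOn {m : ℤ} {f g : FNb N} (hf : f ∈ V (N := N) m) (hg : g ∈ V (N := N) m)
    (h : coordFun N m f = coordFun N m g) : f = g := by
  rw [← sum_coordFun_smul hf, ← sum_coordFun_smul hg, h]

variable (N) in
/-- the height of (the coordinate vector of) a function of `V_m` -/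
def hV (m : ℤ) (f : FNb N) : ℝ := Height.logHeight (coordFun N m f)

variable (N) in
/-- `dim_ℚ I_m(D)` -/
def dI (m : ℤ) (D : Divisor Qb (FNb N)) : ℕ := Module.finrank ℚ (I m D)

variable (N) in
/-- a fixed `ℚ`-basis of `I_m(D)` -/
def bI (m : ℤ) (D : Divisor Qb (FNb N)) : Module.Basis (Fin (dI N m D)) ℚ (I m D) :=
  Module.finBasis ℚ _

variable (N) in
/-- the coordinate matrix of a family of functions -/
def famMat (m : ℤ) {r : ℕ} (w : Fin r → FNb N) : Matrix (Fin r) (Fin (dV N m)) ℚ :=
  Matrix.of fun a => coordFun N m (w a)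

variable (N) in
/-- the coordinate matrix of `I_m(D)` in `V_m` -/
def coordMat (m : ℤ) (D : Divisor Qb (FNb N)) : Matrix (Fin (dI N m D)) (Fin (dV N m)) ℚ :=
  famMat N m fun a => ((bI N m D a : I m D) : FNb N)

variable (N) in
/-- **the Plücker height** of `I_m(D) ⊆ V_m` -/
def Hpl (m : ℤ) (D : Divisor Qb (FNb N)) : ℝ := Height.logHeight (minorsAll (coordMat N m D))

/-- a linearly independent family of `V_m` has linearly independent coordinate rows -/
theorem linearIndependent_famMat {m : ℤ} {r : ℕ} (w : Fin r → FNb N)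
    (hw : ∀ a, w a ∈ V (N := N) m) (hli : LinearIndependent ℚ w) :
    LinearIndependent ℚ (fun a => famMat N m w a) := by
  rw [Fintype.linearIndependent_iff] at hli ⊢
  intro g hg a
  refine hli g ?_ a
  have h1 : coordFun N m (∑ a, g a • w a) = 0 := by
    rw [coordFun_sum _ _ fun a _ => Submodule.smul_mem _ _ (hw a)]
    rw [← hg]
    refine Finset.sum_congr rfl fun a _ => ?_
    rw [coordFun_smul _ (hw a)]
    rfl
  have h0 : coordFun N m (0 : FNb N) = 0 := by
    rw [coordFun_of_mem (Submodule.zero_mem _)]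
    exact map_zero _
  exact coordFun_injOn (Submodule.sum_mem _ fun a _ => Submodule.smul_mem _ _ (hw a))
    (Submodule.zero_mem _) (h1.trans h0.symm)

/-- **basis independence of the Plücker height**: any `ℚ`-independent family of `dI` functions of
`I_m(D)` (`D ≥ 0`) computes `Hpl N m D`. -/
theorem logHeight_minorsAll_eq_Hpl {m : ℤ} {D : Divisor Qb (FNb N)} (hD : 0 ≤ D)
    (w : Fin (dI N m D) → FNb N) (hw : ∀ a, w a ∈ I m D) (hli : LinearIndependent ℚ w) :
    Height.logHeight (minorsAll (famMat N m w)) = Hpl N m D := by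
  classical
  -- `w` is a basis of `I m D`
  let w' : Fin (dI N m D) → I m D := fun a => ⟨w a, hw a⟩
  have hli' : LinearIndependent ℚ w' :=
    LinearIndependent.of_comp (I m D).subtype hli
  -- the change of basis matrix
  let g : Matrix (Fin (dI N m D)) (Fin (dI N m D)) ℚ := fun a b => (bI N m D).repr (w' a) b
  have hrow : ∀ a, w a = ∑ b, g a b • ((bI N m D b : I m D) : FNb N) := by
    intro a
    have h := (bI N m D).sum_repr (w' a)
    have h2 := congrArg (Submodule.subtype _) h
    rw [map_sum] at h2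
    simpa [g, w'] using h2.symm
  have hmat : famMat N m w = g * coordMat N m D := by
    ext a j
    have hV : ∀ b, ((bI N m D b : I m D) : FNb N) ∈ V (N := N) m := fun b =>
      I_le_V hD (bI N m D b).2
    show coordFun N m (w a) j = _
    rw [hrow a, coordFun_sum _ _ fun b _ => Submodule.smul_mem _ _ (hV b), Matrix.mul_apply,
      Finset.sum_apply]
    refine Finset.sum_congr rfl fun b _ => ?_
    rw [coordFun_smul _ (hV b)]
    rfl
  have hg : g.det ≠ 0 := by
    have hrows : LinearIndependent ℚ g.row := by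
      have h1 := hli'.map' (bI N m D).equivFun.toLinearMap
        (LinearMap.ker_eq_bot.2 (bI N m D).equivFun.injective)
      exact h1
    have hu : IsUnit g := Matrix.linearIndependent_rows_iff_isUnit.mp hrows
    exact ((Matrix.isUnit_iff_isUnit_det g).mp hu).ne_zero
  unfold Hpl
  rw [hmat, minorsAll_mul_left, Height.logHeight_smul_eq_logHeight _ hg]

/-- the same with a free row index `r = dI` -/
theorem logHeight_minorsAll_eq_Hpl' {m : ℤ} {D : Divisor Qb (FNb N)} (hD : 0 ≤ D) {r : ℕ}
    (hr : r = dI N m D) (w : Fin r → FNb N) (hw : ∀ a, w a ∈ I m D)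
    (hli : LinearIndependent ℚ w) :
    Height.logHeight (minorsAll (famMat N m w)) = Hpl N m D := by
  subst hr
  exact logHeight_minorsAll_eq_Hpl hD w hw hli

/-! ### Multiplication -/

theorem mul_mem_V {j k : ℤ} {u w : FNb N} (hu : u ∈ V (N := N) j) (hw : w ∈ V (N := N) k) :
    u * w ∈ V (N := N) (j + k) := by
  rcases eq_or_ne u 0 with rfl | hu0
  · rw [zero_mul]; exact Submodule.zero_mem _
  · have h := mul_mem_I (j := j) (mem_I.1 hu).1 hu0 hw
    refine I_mono le_rfl ?_ h
    rw [zero_add]
    exact div0_nonneg hu hu0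

variable (N) in
/-- structure constants of the multiplication `V_j × V_k → V_{j+k}` in the bases `bV` -/
def sc (j k : ℤ) : Fin (dV N (j + k)) → Fin (dV N k) → Fin (dV N j) → ℚ :=
  fun κ i t =>
    coordFun N (j + k) (((bV N j t : V (N := N) j) : FNb N) * ((bV N k i : V (N := N) k) : FNb N)) κ

/-- coordinates of a product -/
theorem coordFun_mul {j k : ℤ} {u w : FNb N} (hu : u ∈ V (N := N) j) (hw : w ∈ V (N := N) k) :
    coordFun N (j + k) (u * w) = (mulMat (sc N j k) (coordFun N j u)).mulVec (coordFun N k w) := by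
  have hb : ∀ t i, ((bV N j t : V (N := N) j) : FNb N) * ((bV N k i : V (N := N) k) : FNb N) ∈
      V (N := N) (j + k) := fun t i => mul_mem_V (bV N j t).2 (bV N k i).2
  have h1 : u * w = ∑ t, ∑ i, (coordFun N j u t * coordFun N k w i) •
      (((bV N j t : V (N := N) j) : FNb N) * ((bV N k i : V (N := N) k) : FNb N)) := by
    conv_lhs => rw [← sum_coordFun_smul hu, ← sum_coordFun_smul hw]
    rw [Finset.sum_mul_sum]
    refine Finset.sum_congr rfl fun t _ => Finset.sum_congr rfl fun i _ => ?_
    rw [smul_mul_smul_comm]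
  rw [h1, coordFun_sum _ _ fun t _ => Submodule.sum_mem _ fun i _ =>
    Submodule.smul_mem _ _ (hb t i)]
  ext κ
  rw [Finset.sum_apply, Matrix.mulVec, dotProduct]
  simp only [mulMat_apply]
  have h2 : ∀ t, coordFun N (j + k) (∑ i, (coordFun N j u t * coordFun N k w i) •
      (((bV N j t : V (N := N) j) : FNb N) * ((bV N k i : V (N := N) k) : FNb N))) κ =
      ∑ i, coordFun N j u t * coordFun N k w i * sc N j k κ i t := by
    intro t
    rw [coordFun_sum _ _ fun i _ => Submodule.smul_mem _ _ (hb t i), Finset.sum_apply]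
    refine Finset.sum_congr rfl fun i _ => ?_
    rw [coordFun_smul _ (hb t i)]
    rfl
  rw [Finset.sum_congr rfl fun t _ => h2 t, Finset.sum_comm]
  refine Finset.sum_congr rfl fun i _ => ?_
  rw [Finset.sum_mul]
  refine Finset.sum_congr rfl fun t _ => ?_
  ring

/-- the coordinate matrix of `u · w_a` is `famMat w * (mulMat sc u)ᵀ` -/
theorem famMat_mul {j k : ℤ} {u : FNb N} (hu : u ∈ V (N := N) j) {r : ℕ} (w : Fin r → FNb N)
    (hw : ∀ a, w a ∈ V (N := N) k) :
    famMat N (j + k) (fun a => u * w a) =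
      famMat N k w * (mulMat (sc N j k) (coordFun N j u))ᵀ := by
  ext a κ
  show coordFun N (j + k) (u * w a) κ = _
  rw [coordFun_mul hu (hw a), Matrix.mul_apply, Matrix.mulVec, dotProduct]
  refine Finset.sum_congr rfl fun i _ => ?_
  rw [Matrix.transpose_apply, mul_comm]
  rfl

/-- multiplication by `u ≠ 0` preserves the dimension -/
theorem dI_add_div0 {j k : ℤ} (E : Divisor Qb (FNb N)) {u : FNb N} (hu : IsRatFun u)
    (hu0 : u ≠ 0) : dI N (j + k) (E + div0 j u) = dI N k E := by
  unfold dI
  rw [← map_mul_I (j := j) (k := k) (E := E) hu hu0]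
  have hinj : Function.Injective (LinearMap.mulLeft ℚ u) := fun a b hab =>
    mul_left_cancel₀ hu0 hab
  exact (Submodule.equivMapOfInjective _ hinj (I k E)).finrank_eq.symm

/-- **`H_{j+k}(E + (u)_0)` in the shape of the multiplication lemma** (`GR/H/MulLemma`):
for `E ≥ 0`, `u ∈ V_j ∖ 0`,
`Hpl (j+k) (E + div0 j u) = logHeight (minorsAll (coordMat k E * (mulMat sc (coords u))ᵀ))`. -/
theorem Hpl_add_div0 {j k : ℤ} {E : Divisor Qb (FNb N)} (hE : 0 ≤ E) {u : FNb N}
    (hu : u ∈ V (N := N) j) (hu0 : u ≠ 0) :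
    Hpl N (j + k) (E + div0 j u) =
      Height.logHeight (minorsAll (coordMat N k E * (mulMat (sc N j k) (coordFun N j u))ᵀ)) := by
  have hur := (mem_I.1 hu).1
  have hVk : ∀ a, ((bI N k E a : I k E) : FNb N) ∈ V (N := N) k := fun a =>
    I_le_V hE (bI N k E a).2
  have hli : LinearIndependent ℚ (fun a => u * ((bI N k E a : I k E) : FNb N)) := by
    have h1 : LinearIndependent ℚ (fun a => ((bI N k E a : I k E) : FNb N)) :=
      (bI N k E).linearIndependent.map' (I k E).subtype (Submodule.ker_subtype _)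
    have hinj : Function.Injective (LinearMap.mulLeft ℚ u) := fun a b hab =>
      mul_left_cancel₀ hu0 hab
    exact h1.map' (LinearMap.mulLeft ℚ u) (LinearMap.ker_eq_bot.2 hinj)
  have h := logHeight_minorsAll_eq_Hpl' (m := j + k) (D := E + div0 j u)
    (add_nonneg hE (div0_nonneg hu hu0)) (dI_add_div0 E hur hu0).symm
    (fun a => u * ((bI N k E a : I k E) : FNb N))
    (fun a => mul_mem_I hur hu0 (bI N k E a).2) hli
  rw [← h, famMat_mul hu _ hVk]
  rfl

end Fermat.Agent.GR.H.PL
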