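/-
GATE-R / S17, node GR-H-PL (helper43): **the rational frame on `X₀(N)`** — part 4: levels.

With the flag bases `bV N (k : ℤ)` (`Coord.lean`, helper95's `Flag.flagBasis`):

* `bV_castLE`        : the basis of `V_k` is the initial segment of the basis of `V_l`, `k ≤ l`;
* `coordFun_castLE`, `coordFun_eq_zero_of_not_mem_range` : coordinates are zero-padded;
* `hV_eq_of_le`      : `hV N l f = hV N k f` for `f ∈ V_k`, `k ≤ l`   (`HeightFrame.hs_eq_of_div0`);
* `logHeight_minorsAll_famMat_eq_of_le` : the Plücker height of a family of `V_k` does not depend on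
  the level at which coordinates are taken;
* `Hpl_add_oo`       : `Hpl N (k+1) (D + ∞) = Hpl N k D`               (`HeightFrame.H_add_inf`);
* `Hpl_zero`         : `Hpl N m 0 = 0`                                 (`HeightFrame.H_zero`);
* `Hpl_nonneg`.
-/
import Fermat.Agent.GR.H.PL.Coord

set_option autoImplicit false

noncomputable section

open AlgebraicCurve ModularCurve
open Fermat.Agent.GR.H.CauchyBinet Fermat.Agent.GR.H.Flag
open scoped Matrix

namespace Fermat.Agent.GR.H.PL

local notation "Qb" => AlgebraicClosure ℚ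

variable {N : ℕ} [NeZero N]

theorem dV_mono {k l : ℕ} (h : k ≤ l) : dV N (k : ℤ) ≤ dV N (l : ℤ) :=
  Submodule.finrank_mono (Vnat_mono N h)

/-- **compatibility of the bases `bV`** -/
theorem bV_castLE {k l : ℕ} (h : k ≤ l) (i : Fin (dV N (k : ℤ))) :
    ((bV N (l : ℤ) (Fin.castLE (dV_mono h) i) : V (N := N) (l : ℤ)) : FNb N) =
      ((bV N (k : ℤ) i : V (N := N) (k : ℤ)) : FNb N) :=
  flagBasis_castLE (Vnat N) (Vnat_mono N) h i

theorem V_le_of_le {k l : ℕ} (h : k ≤ l) : V (N := N) (k : ℤ) ≤ V (N := N) (l : ℤ) :=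
  Vnat_mono N h

theorem coordFun_castLE {k l : ℕ} (h : k ≤ l) {f : FNb N} (hf : f ∈ V (N := N) (k : ℤ))
    (i : Fin (dV N (k : ℤ))) :
    coordFun N (l : ℤ) f (Fin.castLE (dV_mono h) i) = coordFun N (k : ℤ) f i := by
  rw [coordFun_of_mem hf, coordFun_of_mem (V_le_of_le h hf)]
  exact repr_of_le_apply (V_le_of_le h) (bV N (k : ℤ)) (bV N (l : ℤ)) _
    (Fin.castLE_injective _) (bV_castLE h) ⟨f, hf⟩ i

theorem coordFun_eq_zero_of_not_mem_range {k l : ℕ} (h : k ≤ l) {f : FNb N}
    (hf : f ∈ V (N := N) (k : ℤ)) (i' : Fin (dV N (l : ℤ)))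
    (hi' : i' ∉ Set.range (Fin.castLE (dV_mono (N := N) h))) :
    coordFun N (l : ℤ) f i' = 0 := by
  rw [coordFun_of_mem (V_le_of_le h hf)]
  exact repr_of_le_eq_zero (V_le_of_le h) (bV N (k : ℤ)) (bV N (l : ℤ)) _
    (bV_castLE h) ⟨f, hf⟩ i' hi'

/-- **the height of a function does not depend on the level** (`HeightFrame.hs_eq_of_div0`) -/
theorem hV_eq_of_le {k l : ℕ} (h : k ≤ l) {f : FNb N} (hf : f ∈ V (N := N) (k : ℤ)) :
    hV N (l : ℤ) f = hV N (k : ℤ) f :=
  logHeight_pad (Fin.castLE (dV_mono h)) _ _ (coordFun_castLE h hf)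
    (coordFun_eq_zero_of_not_mem_range h hf)

/-- the Plücker height of a family of functions of `V_k` does not depend on the level -/
theorem logHeight_minorsAll_famMat_eq_of_le {k l : ℕ} (h : k ≤ l) {r : ℕ} (w : Fin r → FNb N)
    (hw : ∀ a, w a ∈ V (N := N) (k : ℤ)) :
    Height.logHeight (minorsAll (famMat N (l : ℤ) w)) =
      Height.logHeight (minorsAll (famMat N (k : ℤ) w)) :=
  logHeight_minorsAll_pad (Fin.castLE (dV_mono h)) _ _
    (fun a i => coordFun_castLE h (hw a) i)
    (fun a i' hi' => coordFun_eq_zero_of_not_mem_range h (hw a) i' hi')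

theorem twist_add_oo (m : ℤ) (D : Divisor Qb (FNb N)) :
    twist (m + 1) (D + Finsupp.single (oo N) 1) = twist m D := by
  unfold twist
  rw [Finsupp.single_add]
  abel

theorem I_add_oo (m : ℤ) (D : Divisor Qb (FNb N)) :
    I (m + 1) (D + Finsupp.single (oo N) 1) = I m D := by
  ext f
  rw [mem_I, mem_I, twist_add_oo]

/-- **`H_{k+1}(D + ∞) = H_k(D)`** (`HeightFrame.H_add_inf`) -/
theorem Hpl_add_oo (k : ℕ) {D : Divisor Qb (FNb N)} (hD : 0 ≤ D) :
    Hpl N ((k + 1 : ℕ) : ℤ) (D + Finsupp.single (oo N) 1) = Hpl N (k : ℤ) D := by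
  have hcast : ((k + 1 : ℕ) : ℤ) = (k : ℤ) + 1 := by push_cast; ring
  have hI : I ((k + 1 : ℕ) : ℤ) (D + Finsupp.single (oo N) 1) = I (k : ℤ) D := by
    rw [hcast]; exact I_add_oo _ D
  -- the chosen basis of `I_{k+1}(D + ∞)` is a basis of `I_k(D)`
  set w : Fin (dI N ((k + 1 : ℕ) : ℤ) (D + Finsupp.single (oo N) 1)) → FNb N :=
    fun a => ((bI N _ _ a : I ((k + 1 : ℕ) : ℤ) (D + Finsupp.single (oo N) 1)) : FNb N) with hw
  have hwI : ∀ a, w a ∈ I (k : ℤ) D := fun a => by
    rw [← hI]; exact (bI N _ _ a).2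
  have hli : LinearIndependent ℚ w :=
    (bI N _ _).linearIndependent.map' (I _ _).subtype (Submodule.ker_subtype _)
  have hr : dI N ((k + 1 : ℕ) : ℤ) (D + Finsupp.single (oo N) 1) = dI N (k : ℤ) D := by
    unfold dI; rw [hI]
  have h1 := logHeight_minorsAll_eq_Hpl' (m := (k : ℤ)) hD hr w hwI hli
  have h2 := logHeight_minorsAll_famMat_eq_of_le (Nat.le_succ k) w
    (fun a => I_le_V hD (hwI a))
  rw [← h1, ← h2]
  rfl

/-- the Plücker height is nonnegative -/
theorem Hpl_nonneg (m : ℤ) (D : Divisor Qb (FNb N)) : 0 ≤ Hpl N m D :=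
  Height.logHeight_nonneg _

/-- **`H_m(0) = 0`** (`HeightFrame.H_zero`) -/
theorem Hpl_zero (m : ℤ) : Hpl N m (0 : Divisor Qb (FNb N)) = 0 := by
  classical
  -- compute with the basis `bV` itself: the coordinate matrix is the identity
  have h := logHeight_minorsAll_eq_Hpl' (m := m) (D := (0 : Divisor Qb (FNb N))) le_rfl
    (r := dV N m) rfl
    (fun a => ((bV N m a : V (N := N) m) : FNb N)) (fun a => (bV N m a).2)
    ((bV N m).linearIndependent.map' (V (N := N) m).subtype (Submodule.ker_subtype _))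
  rw [← h]
  have hone : famMat N m (fun a => ((bV N m a : V (N := N) m) : FNb N)) = 1 := by
    ext a j
    show coordFun N m _ j = _
    rw [coordFun_bV, Matrix.one_apply, Pi.single_apply]
    simp [eq_comm]
  rw [hone]
  -- every minor of the identity is `0` or `±1`
  have key : ∀ J : Fin (dV N m) → Fin (dV N m),
      minorsAll (1 : Matrix (Fin (dV N m)) (Fin (dV N m)) ℚ) J = 0 ∨
      minorsAll (1 : Matrix (Fin (dV N m)) (Fin (dV N m)) ℚ) J = 1 ∨
      minorsAll (1 : Matrix (Fin (dV N m)) (Fin (dV N m)) ℚ) J = -1 := by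
    intro J
    by_cases hJ : Function.Injective J
    · right
      let e : Equiv.Perm (Fin (dV N m)) := Equiv.ofBijective J (Finite.injective_iff_bijective.mp hJ)
      have : (1 : Matrix (Fin (dV N m)) (Fin (dV N m)) ℚ).submatrix id J =
          (Equiv.toPEquiv e.symm).toMatrix := by
        ext a b
        simp only [Matrix.submatrix_apply, id_eq, Matrix.one_apply, PEquiv.toMatrix_apply,
          Equiv.toPEquiv_apply, Option.mem_def, Option.some.injEq]
        have : e.symm a = b ↔ a = J b := by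
          constructor
          · intro h; rw [← h]; exact (e.apply_symm_apply a).symm
          · intro h; rw [h]; exact e.symm_apply_apply b
        simp only [this]
      rw [minorsAll_apply, this, Matrix.det_permutation]
      rcases Int.units_eq_one_or (Equiv.Perm.sign e.symm) with h | h
      · left; rw [h]; simp
      · right; rw [h]; simp
    · left
      exact minorsAll_eq_zero_of_not_injective _ hJ
  have hrel := Fermat.Agent.GR.H.PlueckerDual.logHeight_eq_of_rel
    (minorsAll (1 : Matrix (Fin (dV N m)) (Fin (dV N m)) ℚ)) (fun _ : Unit => (1 : ℚ))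
    (fun J => by
      rcases key J with h | h | h
      · exact Or.inl h
      · exact Or.inr ⟨(), Or.inl h⟩
      · exact Or.inr ⟨(), Or.inr h⟩)
    (fun _ => Or.inr ⟨id, Or.inl (by rw [minorsAll_apply]; simp)⟩)
  rw [hrel]
  exact Height.logHeight_one

end Fermat.Agent.GR.H.PL
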