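/-
GATE-R / S17, node GR-H-PL (helper43): **the rational frame on `X₀(N)`** — part 5.

* `eq_zero_of_nonneg_of_degree_eq_zero` : an effective divisor of degree `0` is `0`;
* `divOf_mul`, `div0_mul`, `div0_add_level` : additivity of `div₀`;
* `exists_rat_const` : a rational function with trivial divisor is a rational constant;
* `exists_smul_eq_of_divOf_eq` : rational functions with the same divisor differ by `q ∈ ℚˣ`;
* `hV_eq_of_div0_eq` : `div₀ s' = div₀ s + j ∞ ⟹ h(s') = h(s)`   (`HeightFrame.hs_eq_of_div0`);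
* `exists_section_of_principal` : `E ≥ 0` rational, `E - (deg E) ∞` principal
  `⟹ ∃ s ∈ V_{deg E} ∖ 0, div₀ s = E`                                  (`HeightFrame.princ`).
-/
import Fermat.Agent.GR.H.PL.Level

set_option autoImplicit false

noncomputable section

open AlgebraicCurve ModularCurve
open Fermat.Agent.RR.Bound

namespace Fermat.Agent.GR.H.PL

local notation "Qb" => AlgebraicClosure ℚ

variable {N : ℕ} [NeZero N]

/-- an effective divisor of degree `0` is `0` -/
theorem eq_zero_of_nonneg_of_degree_eq_zero {D : Divisor Qb (FNb N)} (hD : 0 ≤ D)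
    (hdeg : Divisor.degree D = 0) : D = 0 := by
  classical
  have h1 : Divisor.degree D = ∑ v ∈ D.support, D v := by
    unfold Divisor.degree
    rw [Finsupp.liftAddHom_apply, Finsupp.sum]
    refine Finset.sum_congr rfl fun v _ => ?_
    simp [Fermat.Agent.RR.ModularBar.deg_eq_one N v]
  rw [h1] at hdeg
  have h2 := (Finset.sum_eq_zero_iff_of_nonneg fun v _ => Finsupp.le_def.mp hD v).mp hdeg
  ext v
  by_cases hv : v ∈ D.support
  · exact h2 v hv
  · exact Finsupp.notMem_support_iff.mp hv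

theorem divOf_mul {f g : FNb N} (hf : f ≠ 0) (hg : g ≠ 0) :
    divOf Qb (f * g) = divOf Qb f + divOf Qb g := by
  ext v
  rw [Finsupp.add_apply, divOf_apply (mul_ne_zero hf hg), divOf_apply hf, divOf_apply hg,
    v.ord_mul hf hg]

theorem div0_mul (j k : ℤ) {s t : FNb N} (hs : s ≠ 0) (ht : t ≠ 0) :
    div0 (j + k) (s * t) = div0 j s + div0 k t := by
  unfold div0
  rw [divOf_mul hs ht, Finsupp.single_add]
  abel

theorem div0_add_level (k j : ℤ) (s : FNb N) :
    div0 (k + j) s = div0 k s + Finsupp.single (oo N) j := by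
  unfold div0
  rw [Finsupp.single_add]
  abel

/-- `dim_ℚ V_0 = 1` -/
theorem dV_zero : dV N 0 = 1 := by
  unfold dV
  rw [finrank_I isRatDiv_zero 0]
  have : twist (N := N) 0 0 = 0 := by unfold twist; simp
  rw [this]
  exact Fermat.Agent.GR.W.RatRep.finrank_L_zero N

theorem one_mem_V_zero : (1 : FNb N) ∈ V (N := N) 0 := by
  refine mem_I.2 ⟨IsRatFun.one, ?_⟩
  rw [mem_riemannRochSpace_iff]
  intro v
  right
  have : twist (N := N) 0 0 = 0 := by unfold twist; simp
  rw [this, Place.ord_one]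
  simp

/-- **a rational function with trivial divisor is a rational constant** -/
theorem exists_rat_const {f : FNb N} (hf : IsRatFun f) (hf0 : f ≠ 0)
    (hdiv : divOf Qb f = 0) : ∃ q : ℚ, q ≠ 0 ∧ f = q • (1 : FNb N) := by
  have hfV : f ∈ V (N := N) 0 := by
    refine mem_I.2 ⟨hf, ?_⟩
    rw [mem_riemannRochSpace_iff]
    intro v
    right
    have : twist (N := N) 0 0 = 0 := by unfold twist; simp
    rw [this, ← divOf_apply hf0, hdiv]
    simp
  have h1 : Module.finrank ℚ (V (N := N) 0) = 1 := dV_zero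
  obtain ⟨q, hq⟩ := (finrank_eq_one_iff_of_nonzero' (⟨1, one_mem_V_zero⟩ : V (N := N) 0)
    (by intro h; exact one_ne_zero (congrArg Subtype.val h))).mp h1 ⟨f, hfV⟩
  have hq' : f = q • (1 : FNb N) := by
    have := congrArg Subtype.val hq
    simpa using this.symm
  refine ⟨q, ?_, hq'⟩
  rintro rfl
  rw [zero_smul] at hq'
  exact hf0 hq'

/-- rational functions with the same divisor differ by a nonzero rational constant -/
theorem exists_smul_eq_of_divOf_eq {s s' : FNb N} (hs : IsRatFun s) (hs' : IsRatFun s')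
    (hs0 : s ≠ 0) (hs'0 : s' ≠ 0) (h : divOf Qb s' = divOf Qb s) :
    ∃ q : ℚ, q ≠ 0 ∧ s' = q • s := by
  have h1 : divOf Qb (s' * s⁻¹) = 0 := by
    rw [divOf_mul hs'0 (inv_ne_zero hs0), divOf_inv, h, add_neg_cancel]
  obtain ⟨q, hq0, hq⟩ := exists_rat_const (hs'.mul hs.inv) (mul_ne_zero hs'0 (inv_ne_zero hs0)) h1
  refine ⟨q, hq0, ?_⟩
  have : s' = (s' * s⁻¹) * s := by rw [mul_assoc, inv_mul_cancel₀ hs0, mul_one]
  rw [this, hq, smul_mul_assoc, one_mul]

/-- **`div₀ s' = div₀ s + j ∞ ⟹ h(s') = h(s)`** (`HeightFrame.hs_eq_of_div0`) -/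
theorem hV_eq_of_div0_eq {k l j : ℕ} {s s' : FNb N} (hs : s ∈ V (N := N) (k : ℤ)) (hs0 : s ≠ 0)
    (hs' : s' ∈ V (N := N) (l : ℤ)) (hs'0 : s' ≠ 0)
    (h : div0 (l : ℤ) s' = div0 (k : ℤ) s + j • Finsupp.single (oo N) 1) :
    hV N (l : ℤ) s' = hV N (k : ℤ) s := by
  -- degrees: `l = k + j`
  have hdeg : (l : ℤ) = (k : ℤ) + j := by
    have := congrArg Divisor.degree h
    rw [degree_div0, map_add, degree_div0, map_nsmul, Divisor.degree_single,
      Fermat.Agent.GR.W.RatRep.deg_cuspInf N] at this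
    simpa using this
  have hkl : k ≤ l := by omega
  have hdiv : divOf Qb s' = divOf Qb s := by
    unfold div0 at h
    rw [hdeg, Finsupp.single_add] at h
    have h2 : j • Finsupp.single (oo N) (1 : ℤ) = Finsupp.single (oo N) (j : ℤ) := by
      rw [Finsupp.smul_single]; simp
    rw [h2] at h
    have h3 : divOf Qb s' + (Finsupp.single (oo N) (k : ℤ) + Finsupp.single (oo N) (j : ℤ)) =
        divOf Qb s + (Finsupp.single (oo N) (k : ℤ) + Finsupp.single (oo N) (j : ℤ)) := by
      rw [h]; abel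
    exact add_right_cancel h3
  obtain ⟨q, hq0, hq⟩ := exists_smul_eq_of_divOf_eq (mem_I.1 hs).1 (mem_I.1 hs').1 hs0 hs'0 hdiv
  have hsl : s ∈ V (N := N) (l : ℤ) := V_le_of_le hkl hs
  rw [hq]
  unfold hV
  rw [coordFun_smul q hsl, Height.logHeight_smul_eq_logHeight _ hq0]
  exact hV_eq_of_le hkl hs

/-- **(princ)**: a rational effective divisor `E` with `E - (deg E) ∞` principal is `div₀` of a
nonzero section `s ∈ V_{deg E}`. -/
theorem exists_section_of_principal {E : Divisor Qb (FNb N)} (hE : 0 ≤ E) (hrat : IsRatDiv E)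
    (e : ℤ) (he : Divisor.degree E = e)
    (hprinc : E - Finsupp.single (oo N) e ∈ Divisor.principal (K := Qb) (F := FNb N)) :
    ∃ s : FNb N, s ∈ V (N := N) e ∧ s ≠ 0 ∧ div0 e s = E := by
  obtain ⟨g, hg0, hg⟩ := hprinc
  -- `g ∈ L(e ∞ - E)`
  have hgL : g ∈ riemannRochSpace (twist e E) := by
    rw [mem_riemannRochSpace_iff]
    intro v
    right
    rw [← hg v]
    unfold twist
    simp
  -- hence `I e E ≠ 0`
  have hne : I e E ≠ ⊥ := by
    intro hbot
    have h1 := span_I hrat e
    rw [hbot] at h1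
    have : g ∈ Submodule.span Qb ((⊥ : Submodule ℚ (FNb N)) : Set (FNb N)) := by
      rw [h1]; exact hgL
    have h2 : Submodule.span Qb ((⊥ : Submodule ℚ (FNb N)) : Set (FNb N)) = ⊥ := by
      rw [Submodule.span_eq_bot]
      intro x hx
      exact (Submodule.mem_bot ℚ).mp hx
    rw [h2] at this
    exact hg0 ((Submodule.mem_bot Qb).mp this)
  obtain ⟨s, hsI, hs0⟩ := (Submodule.ne_bot_iff _).mp hne
  refine ⟨s, I_le_V hE hsI, hs0, ?_⟩
  -- `div s + e∞ - E ≥ 0` of degree `0`
  have hnn : 0 ≤ twist e E + divOf Qb s :=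
    Fermat.Agent.RR.EffRep.nonneg_add_divOf (mem_I.1 hsI).2 hs0
  have hdeg : Divisor.degree (twist e E + divOf Qb s) = 0 := by
    rw [map_add, degree_twist, degree_divOf, he]
    ring
  have h0 := eq_zero_of_nonneg_of_degree_eq_zero hnn hdeg
  unfold div0
  unfold twist at h0
  have : divOf Qb s + Finsupp.single (oo N) e = E + (Finsupp.single (oo N) e - E + divOf Qb s) := by
    abel
  rw [this, h0, add_zero]

end Fermat.Agent.GR.H.PL
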