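/-
GATE-R (S17) / node GR-H-PL-EV part 2 (helper63): **rationality of the Plücker vector of the
evaluation matrix up to one scalar, and its height** — the consumer shapes (alpha), (alpha'),
(gamma) of helper43 4782 / helper3 4859 in abstract form.

* `smul_det`, `smul_minorsAll_of_perm` : a ring automorphism permuting the rows of `E` multiplies
  every maximal minor by the sign of the permutation;
* `exists_eps_xi` : `E` over `K` with independent rows, a group `Γ` acting on `K` with fixed
  field `K₀` and permuting the rows of `E` ⟹ `minorsAll E = ε • ξ` with `ε ≠ 0` and `ξ`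
  `K₀`-rational, `ξ J₀ = 1` for some `J₀`;
* `exists_eps_xi_logHeight` : if moreover `E * W_Kᵀ = 0` for a `K₀`-matrix `W` with independent
  rows and complementary size, then `logHeight (minorsAll W) = logHeight ξ`
  (helper1's Plücker duality `logHeight_minorsAll_eq_of_dual_scalar`);
* `exists_perm_of_smul_sumDiv_eq` : a semilinear automorphism fixing the reduced divisor
  `Σ P_i` permutes the `P_i`;
* `exists_perm_evMat` : (gamma) for the evaluation matrix;
* `alpha` : (alpha)+(alpha') for the evaluation matrix of a Galois-stable reduced divisor in the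
  abstract function-field frame of `GR/H/PL/Ev.lean`.
-/
import Mathlib
import Fermat.Agent.GR.H.PL.Ev
import Fermat.Agent.GR.H.PlueckerDualAll
import Fermat.Agent.GR.H.MulCert

set_option autoImplicit false

noncomputable section

open AlgebraicCurve

namespace Fermat.Agent.GR.H.PL.EvRat

open Fermat.Agent.RRh45 Fermat.Agent.S24 Fermat.Agent.GH Fermat.Agent.GH.Disc
open Fermat.Agent.GR.H.PL.Ev Fermat.Agent.GR.H.CauchyBinet Height

/-! ### ring automorphisms and minors -/

section Minors

variable {Γ K : Type*} [Group Γ] [Field K] [MulSemiringAction Γ K]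

theorem smul_det {m : Type*} [Fintype m] [DecidableEq m] (σ : Γ) (M : Matrix m m K) :
    σ • M.det = (M.map fun x => σ • x).det :=
  RingHom.map_det (MulSemiringAction.toRingHom Γ K σ) M

/-- if `σ` permutes the rows of `E` by `π`, every maximal minor is multiplied by `sign π`. -/
theorem smul_minorsAll_of_perm {ι κ : Type*} [Fintype ι] [DecidableEq ι] (σ : Γ)
    (E : Matrix ι κ K) (π : Equiv.Perm ι) (hπ : ∀ i j, σ • E i j = E (π i) j) (J : ι → κ) :
    σ • minorsAll E J = (Equiv.Perm.sign π : ℤ) * minorsAll E J := by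
  rw [minorsAll_apply, smul_det]
  have h : ((E.submatrix id J).map fun x => σ • x) = (E.submatrix id J).submatrix π id := by
    ext i j
    simp [hπ]
  rw [h, Matrix.det_permute]

theorem intCast_sign_ne_zero {ι : Type*} [Fintype ι] [DecidableEq ι] (π : Equiv.Perm ι) :
    ((Equiv.Perm.sign π : ℤ) : K) ≠ 0 := by
  rcases Int.units_eq_one_or (Equiv.Perm.sign π) with h | h <;> simp [h]

end Minors

/-! ### rationality up to one scalar -/

section Rational

variable {K₀ K : Type*} [Field K₀] [Field K] [Algebra K₀ K]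
variable {Γ : Type*} [Group Γ] [MulSemiringAction Γ K]

/-- **(alpha), rationality half + (alpha')**: the Plücker vector of a matrix with independent
rows which are permuted by a group `Γ` with fixed field `K₀` is `K₀`-rational up to ONE scalar. -/
theorem exists_eps_xi {ι κ : Type*} [Fintype ι] [DecidableEq ι] [Fintype κ] (E : Matrix ι κ K)
    (hE : LinearIndependent K E.row)
    (hfix : ∀ x : K, (∀ σ : Γ, σ • x = x) → x ∈ Set.range (algebraMap K₀ K))
    (hperm : ∀ σ : Γ, ∃ π : Equiv.Perm ι, ∀ i j, σ • E i j = E (π i) j) :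
    ∃ (ε : K) (ξ : (ι → κ) → K₀), ε ≠ 0 ∧
      (∀ J, minorsAll E J = ε * algebraMap K₀ K (ξ J)) ∧ ∃ J₀, ξ J₀ = 1 := by
  classical
  have hne : minorsAll E ≠ 0 := (Fermat.Agent.GR.H.MulCert.minorsAll_ne_zero_iff E).mpr hE
  obtain ⟨J₀, hJ₀⟩ := Function.ne_iff.mp hne
  rw [Pi.zero_apply] at hJ₀
  set ε : K := minorsAll E J₀ with hε
  have hfixed : ∀ J, ∀ σ : Γ, σ • (minorsAll E J / ε) = minorsAll E J / ε := by
    intro J σ
    obtain ⟨π, hπ⟩ := hperm σ
    rw [smul_div₀', smul_minorsAll_of_perm σ E π hπ J, hε, smul_minorsAll_of_perm σ E π hπ J₀,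
      mul_div_mul_left _ _ (intCast_sign_ne_zero π)]
  choose ξ hξ using fun J => hfix _ (hfixed J)
  refine ⟨ε, ξ, hJ₀, fun J => ?_, J₀, ?_⟩
  · rw [hξ J, mul_div_cancel₀ _ hJ₀]
  · apply (algebraMap K₀ K).injective
    rw [hξ J₀, map_one, div_self hJ₀]

/-- **(alpha)+(alpha'), abstract form**: moreover the `K₀`-height of the rational tuple `ξ` is the
Plücker height of ANY `K₀`-matrix `W` with independent rows, complementary size, and
`E * W_Kᵀ = 0`. -/
theorem exists_eps_xi_logHeight [AdmissibleAbsValues K₀] {d r n : ℕ} (hn : r + d = n)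
    (E : Matrix (Fin d) (Fin n) K) (hE : LinearIndependent K E.row)
    (W : Matrix (Fin r) (Fin n) K₀) (hW : LinearIndependent K₀ W.row)
    (hEW : E * (W.map (algebraMap K₀ K)).transpose = 0)
    (hfix : ∀ x : K, (∀ σ : Γ, σ • x = x) → x ∈ Set.range (algebraMap K₀ K))
    (hperm : ∀ σ : Γ, ∃ π : Equiv.Perm (Fin d), ∀ i j, σ • E i j = E (π i) j) :
    ∃ (ε : K) (ξ : (Fin d → Fin n) → K₀), ε ≠ 0 ∧
      (∀ J, minorsAll E J = ε * algebraMap K₀ K (ξ J)) ∧ (∃ J₀, ξ J₀ = 1) ∧
      logHeight (minorsAll W) = logHeight ξ := by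
  obtain ⟨ε, ξ, hε, hξ, hJ₀⟩ := exists_eps_xi (K₀ := K₀) E hE hfix hperm
  exact ⟨ε, ξ, hε, hξ, hJ₀,
    Fermat.Agent.GR.H.PlueckerDualAll.logHeight_minorsAll_eq_of_dual_scalar hn W hW E hE hEW ξ ε
      hε hξ⟩

end Rational

/-! ### Galois-stable reduced divisors -/

section Perm

variable {K F : Type*} [Field K] [Field F] [Algebra K F]

theorem smul_sumDiv {ι : Type*} [Fintype ι] (g : SemilinearAut K F) (P : ι → Place K F) :
    g • sumDiv P = sumDiv fun i => g • P i := by
  unfold sumDiv
  rw [Finset.smul_sum]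
  exact Finset.sum_congr rfl fun i _ => SemilinearAut.smul_single g (P i) 1

theorem exists_eq_of_sumDiv_apply_ne_zero {ι : Type*} [Fintype ι] {P : ι → Place K F}
    {v : Place K F} (hv : sumDiv P v ≠ 0) : ∃ i, P i = v := by
  by_contra h
  push Not at h
  exact hv (sumDiv_apply_of_notMem h)

/-- **a semilinear automorphism fixing the reduced divisor `Σ P_i` permutes the `P_i`.** -/
theorem exists_perm_of_smul_sumDiv_eq {ι : Type*} [Fintype ι] {P : ι → Place K F}
    (hinj : Function.Injective P) (g : SemilinearAut K F) (hg : g • sumDiv P = sumDiv P) :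
    ∃ π : Equiv.Perm ι, ∀ i, g • P i = P (π i) := by
  classical
  have hex : ∀ i, ∃ j, P j = g • P i := by
    intro i
    apply exists_eq_of_sumDiv_apply_ne_zero
    rw [← hg, smul_sumDiv,
      sumDiv_apply_of_injective (P := fun i => g • P i)
        (fun a b hab => hinj (MulAction.injective g hab)) i]
    exact one_ne_zero
  choose π hπ using hex
  have hπinj : Function.Injective π := by
    intro a b hab
    have : g • P a = g • P b := by rw [← hπ a, ← hπ b, hab]
    exact hinj (MulAction.injective g this)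
  exact ⟨Equiv.ofBijective π (Finite.injective_iff_bijective.mp hπinj), fun i => (hπ i).symm⟩

/-- **(gamma)**: the rows of the evaluation matrix of a `g`-stable reduced divisor, in `g`-fixed
functions, are permuted by `g`. -/
theorem exists_perm_evMat {ι κ : Type*} [Fintype ι] {P : ι → Place K F}
    (hinj : Function.Injective P) (hP : ∀ i, (P i).deg = 1) {b : κ → F}
    (hb : ∀ i j, b j ∈ (P i).toValuationSubring) (g : SemilinearAut K F)
    (hg : g • sumDiv P = sumDiv P) (hgb : ∀ j, g • b j = b j) :
    ∃ π : Equiv.Perm ι, ∀ i j, SemilinearAut.baseAut g (evMat P b i j) = evMat P b (π i) j := by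
  obtain ⟨π, hπ⟩ := exists_perm_of_smul_sumDiv_eq hinj g hg
  refine ⟨π, fun i j => ?_⟩
  have h := evMat_map_baseAut g hP hb π hπ hgb
  have h2 := congrFun (congrFun h i) j
  simpa using h2

end Perm

/-! ### (alpha) in the abstract function-field frame -/

section Alpha

variable {K₀ K F : Type*} [Field K₀] [Field K] [Field F] [Algebra K₀ K] [Algebra K F]
variable [AdmissibleAbsValues K₀]
variable {Γ : Type*} [Group Γ] [MulSemiringAction Γ K]

/-- **(alpha)+(alpha')+(gamma) for the evaluation matrix.**  `P i` pairwise distinct places of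
degree one off the support of `A`, `b` a basis of `L(A)`, `W` a `K₀`-matrix with independent rows
whose rows are `b`-coordinates of functions of `L(A - Σ P_i)`, of complementary size; a group `Γ`
acting on `K` with fixed field `K₀` and on `F` semilinearly (through `gal`), fixing `Σ P_i` and
the functions `b j`; the evaluation matrix of full row rank (automatic above the Riemann
threshold: `Ev.rank_evMat_eq_card`).  Then the Plücker vector of the evaluation matrix is
`ε • ξ` with `ξ` rational over `K₀`, and `logHeight ξ = logHeight (minorsAll W)`. -/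
theorem alpha {d r n : ℕ} (hn : r + d = n) {P : Fin d → Place K F}
    (hinj : Function.Injective P) (hP : ∀ i, (P i).deg = 1) {A : Divisor K F}
    (hA : ∀ i, A (P i) = 0) (b : Module.Basis (Fin n) K (riemannRochSpace A))
    (hr : (evMat P (basisFun b)).rank = Fintype.card (Fin d))
    (W : Matrix (Fin r) (Fin n) K₀) (hW : LinearIndependent K₀ W.row)
    (hWD : ∀ a, ∑ j, algebraMap K₀ K (W a j) • basisFun b j ∈ riemannRochSpace (A - sumDiv P))
    (hfix : ∀ x : K, (∀ σ : Γ, σ • x = x) → x ∈ Set.range (algebraMap K₀ K))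
    (gal : Γ → SemilinearAut K F) (hbase : ∀ σ x, SemilinearAut.baseAut (gal σ) x = σ • x)
    (hD : ∀ σ, gal σ • sumDiv P = sumDiv P) (hgb : ∀ σ j, gal σ • basisFun b j = basisFun b j) :
    ∃ (ε : K) (ξ : (Fin d → Fin n) → K₀), ε ≠ 0 ∧
      (∀ J, minorsAll (evMat P (basisFun b)) J = ε * algebraMap K₀ K (ξ J)) ∧ (∃ J₀, ξ J₀ = 1) ∧
      logHeight (minorsAll W) = logHeight ξ := by
  have hreg : ∀ i j, basisFun b j ∈ (P i).toValuationSubring := fun i j =>
    mem_valuationSubring_of_mem (basisFun_mem b j) (hA i)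
  refine exists_eps_xi_logHeight hn (evMat P (basisFun b)) (linearIndependent_rows hr) W hW ?_ hfix
    fun σ => ?_
  · exact evMat_mul_transpose_eq_zero hinj hP hA (basisFun_mem b) (W.map (algebraMap K₀ K))
      fun a => by simpa using hWD a
  · obtain ⟨π, hπ⟩ := exists_perm_evMat hinj hP hreg (gal σ) (hD σ) (hgb σ)
    exact ⟨π, fun i j => by rw [← hbase, hπ]⟩

end Alpha

end Fermat.Agent.GR.H.PL.EvRat
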