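/-
GATE-R (S17) / node GR-H-PL-EV part 3 (helper63): **the evaluation matrix in the rational frame on
`X₀(N)`** — the concrete plug of `GR/H/PL/Ev.lean` + `EvRat.lean` on helper43's PL frame
(`GR/H/PL/Rat.lean`, `Coord.lean`).

`F = ℚ̄(X₀(N))`, `∞ = oo N`, `bV N m` the fixed `ℚ`-basis of `V_m = L_ℚ(m ∞)`,
`evM N m P := (bV N m j (P i))_{i,j}` for places `P i`.

* `bVQb N m`            : `bV N m` as a `ℚ̄`-basis of `L(m ∞)`;
* `gamma`               : (gamma) of helper3 4859 — every `σ ∈ G_ℚ` permutes the rows of `evM` when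
                          `Σ P_i` is rational;
* `evM_mul_coordMat`    : `evM * (coordMat_ℚ̄)ᵀ = 0`;
* `exists_threshold_ev` : ONE threshold `c` such that for `m ≥ c + d`: rows of `evM` independent,
                          `dI + d = dV`;
* `Hpl_eq_logHeight_of_minors` : (P-b) of helper3 4795 — ANY `(ε, w)` with
                          `minorsAll evM = ε • w`, `w` rational, computes `Hpl N m (Σ P_i)`;
* `alpha`               : (alpha)+(alpha') of helper43 4782 / helper3 4859 — such `(ε, ξ)` exist,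
                          with `ξ J₀ = 1` for some `J₀`.
-/
import Mathlib
import Fermat.Agent.GR.H.PL.EvRat
import Fermat.Agent.GR.H.PL.Coord

set_option autoImplicit false

noncomputable section

open AlgebraicCurve ModularCurve

namespace Fermat.Agent.GR.H.PL.EvPlug

open Fermat.Agent.GR.H.PL Fermat.Agent.GR.H.PL.Ev Fermat.Agent.GR.H.PL.EvRat
open Fermat.Agent.GR.H.CauchyBinet Height

local notation "Qb" => AlgebraicClosure ℚ
local notation "GQ" => (AlgebraicClosure ℚ ≃ₐ[ℚ] AlgebraicClosure ℚ)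

variable (N : ℕ) [NeZero N]

/-- the functions of the fixed basis of `V_m`, as elements of `F`. -/
def bQ (m : ℤ) : Fin (dV N m) → FNb N := fun j => ((bV N m j : V (N := N) m) : FNb N)

/-- **the evaluation matrix** of the places `P i` in the basis `bV N m`. -/
def evM (m : ℤ) {ι : Type*} (P : ι → Place Qb (FNb N)) : Matrix ι (Fin (dV N m)) Qb :=
  evMat P (bQ N m)

variable {N}

theorem bQ_mem_V (m : ℤ) (j : Fin (dV N m)) : bQ N m j ∈ V (N := N) m := (bV N m j).2

theorem isRatFun_bQ (m : ℤ) (j : Fin (dV N m)) : IsRatFun (bQ N m j) :=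
  (mem_I.1 (bQ_mem_V m j)).1

theorem bQ_mem_L (m : ℤ) (j : Fin (dV N m)) :
    bQ N m j ∈ riemannRochSpace (twist (N := N) m 0) := (mem_I.1 (bQ_mem_V m j)).2

theorem linearIndependent_bQ (m : ℤ) : LinearIndependent Qb (bQ N m) := by
  refine linearIndependent_Qb _ (isRatFun_bQ m) ?_
  exact (bV N m).linearIndependent.map' (V (N := N) m).subtype (Submodule.ker_subtype _)

variable (N) in
/-- `bV N m` as a `ℚ̄`-basis of `L(m ∞)`. -/
def bVQb (m : ℤ) : Module.Basis (Fin (dV N m)) Qb (riemannRochSpace (twist (N := N) m 0)) :=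
  basisOfLinearIndependentOfCardEqFinrank'
    (fun j => (⟨bQ N m j, bQ_mem_L m j⟩ : riemannRochSpace (twist (N := N) m 0)))
    (LinearIndependent.of_comp (riemannRochSpace (twist (N := N) m 0)).subtype
      (linearIndependent_bQ m))
    (by rw [Fintype.card_fin, dV, finrank_I isRatDiv_zero m])

theorem basisFun_bVQb (m : ℤ) : basisFun (bVQb N m) = bQ N m := by
  funext j
  unfold basisFun bVQb
  rw [coe_basisOfLinearIndependentOfCardEqFinrank']

theorem twist_zero_apply {m : ℤ} {v : Place Qb (FNb N)} (hv : v ≠ oo N) :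
    twist (N := N) m 0 v = 0 := by
  unfold twist
  rw [Finsupp.sub_apply, Finsupp.single_eq_of_ne hv]
  simp

theorem twist_zero_sub (m : ℤ) (D : Divisor Qb (FNb N)) :
    twist (N := N) m 0 - D = twist m D := by
  unfold twist
  rw [sub_zero]

theorem deg_place (v : Place Qb (FNb N)) : v.deg = 1 := Fermat.Agent.RR.ModularBar.deg_eq_one N v

omit [NeZero N] in
theorem sumDiv_nonneg {ι : Type*} [Fintype ι] (P : ι → Place Qb (FNb N)) : 0 ≤ sumDiv P := by
  unfold sumDiv
  exact Finset.sum_nonneg fun i _ => Finsupp.single_nonneg.mpr zero_le_one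

/-- the fixed field of `G_ℚ` on `ℚ̄` is `ℚ`. -/
theorem mem_range_of_fixed (x : Qb) (hx : ∀ σ : GQ, σ • x = x) :
    x ∈ Set.range (algebraMap ℚ Qb) := by
  have : Algebra.IsAlgebraic ℚ Qb := AlgebraicClosure.isAlgebraic ℚ
  have : IsAlgClosure ℚ Qb := ⟨inferInstance, inferInstance⟩
  have : IsGalois ℚ Qb := IsAlgClosure.isGalois ℚ _
  exact (InfiniteGalois.mem_range_algebraMap_iff_fixed x).mpr fun σ => hx σ

/-! ### (gamma) -/

/-- **(gamma)**: for a rational reduced divisor `Σ P_i` off `∞`, every `σ ∈ G_ℚ` permutes the rows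
of the evaluation matrix. -/
theorem gamma (m : ℤ) {d : ℕ} {P : Fin d → Place Qb (FNb N)} (hinj : Function.Injective P)
    (hoo : ∀ i, P i ≠ oo N) (hD : IsRatDiv (sumDiv P)) (σ : GQ) :
    ∃ π : Equiv.Perm (Fin d), ∀ i j, σ (evM N m P i j) = evM N m P (π i) j := by
  have hreg : ∀ i j, bQ N m j ∈ (P i).toValuationSubring := fun i j =>
    mem_valuationSubring_of_mem (bQ_mem_L m j) (twist_zero_apply (hoo i))
  obtain ⟨π, hπ⟩ := exists_perm_evMat hinj (fun i => deg_place (P i)) hreg (gal N σ) (hD σ)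
    (fun j => isRatFun_bQ m j σ)
  exact ⟨π, hπ⟩

/-! ### duality input -/

/-- the rows of `coordMat` are coordinates of functions of `L(m ∞ - D)`. -/
theorem sum_coordMat_smul_bQ {m : ℤ} {D : Divisor Qb (FNb N)} (hD : 0 ≤ D)
    (a : Fin (dI N m D)) :
    ∑ j, algebraMap ℚ Qb (coordMat N m D a j) • bQ N m j = ((bI N m D a : I m D) : FNb N) := by
  have hV : ((bI N m D a : I m D) : FNb N) ∈ V (N := N) m := I_le_V hD (bI N m D a).2
  have h := sum_coordFun_smul hV
  rw [← h]
  refine Finset.sum_congr rfl fun j _ => ?_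
  rw [algebraMap_smul]
  rfl

/-- **`evM * (coordMat_ℚ̄)ᵀ = 0`.** -/
theorem evM_mul_coordMat (m : ℤ) {d : ℕ} {P : Fin d → Place Qb (FNb N)}
    (hinj : Function.Injective P) (hoo : ∀ i, P i ≠ oo N) :
    evM N m P * ((coordMat N m (sumDiv P)).map (algebraMap ℚ Qb)).transpose = 0 := by
  refine evMat_mul_transpose_eq_zero hinj (fun i => deg_place (P i))
    (A := twist (N := N) m 0) (fun i => twist_zero_apply (hoo i)) (bQ_mem_L m) _ fun a => ?_
  have h := sum_coordMat_smul_bQ (sumDiv_nonneg P) a (m := m)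
  simp only [Matrix.map_apply]
  rw [h, twist_zero_sub]
  exact (mem_I.1 (bI N m (sumDiv P) a).2).2

theorem linearIndependent_coordMat {m : ℤ} {D : Divisor Qb (FNb N)} (hD : 0 ≤ D) :
    LinearIndependent ℚ (coordMat N m D).row := by
  refine linearIndependent_famMat _ (fun a => I_le_V hD (bI N m D a).2) ?_
  exact (bI N m D).linearIndependent.map' (I m D).subtype (Submodule.ker_subtype _)

/-! ### thresholds -/

variable (N) in
/-- **ONE threshold**: for `m ≥ c + d` the evaluation matrix of `d` distinct places off `∞` has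
independent rows, and `dI + d = dV` when `Σ P_i` is rational. -/
theorem exists_threshold_ev : ∃ c : ℤ, ∀ (m : ℤ) {d : ℕ} (P : Fin d → Place Qb (FNb N)),
    Function.Injective P → (∀ i, P i ≠ oo N) → c + d ≤ m →
      LinearIndependent Qb (evM N m P).row ∧
        (IsRatDiv (sumDiv P) → dI N m (sumDiv P) + d = dV N m) := by
  have := Fermat.Agent.RR.ModularBar.finiteResidues N
  have := Fermat.Agent.RR.ModularBar.nonempty_place N
  obtain ⟨c₁, hc₁⟩ := exists_threshold N
  obtain ⟨c₂, hc₂⟩ := exists_threshold_rank_evMat Qb (FNb N)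
  refine ⟨max c₁ c₂, fun m d P hinj hoo hm => ⟨?_, fun hD => ?_⟩⟩
  · have hdeg : Divisor.degree (twist (N := N) m 0) = m := by
      rw [degree_twist, map_zero, sub_zero]
    have hr := hc₂ P (twist (N := N) m 0) hinj (fun i => deg_place (P i))
      (fun i => twist_zero_apply (hoo i)) (bVQb N m)
      (by rw [hdeg, Fintype.card_fin]; have := le_max_right c₁ c₂; linarith)
    rw [basisFun_bVQb] at hr
    exact linearIndependent_rows hr
  · have h1 := hc₁ m (sumDiv P) hD (by
      rw [degree_sumDiv fun i => deg_place (P i), Fintype.card_fin]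
      have := le_max_left c₁ c₂; linarith)
    have h2 := hc₁ m 0 isRatDiv_zero (by
      rw [map_zero]; have := le_max_left c₁ c₂; linarith)
    rw [degree_sumDiv fun i => deg_place (P i), Fintype.card_fin] at h1
    rw [map_zero] at h2
    have : ((dI N m (sumDiv P) + d : ℕ) : ℤ) = (dV N m : ℤ) := by
      unfold dI dV
      push_cast
      rw [h1, h2]
      ring
    exact_mod_cast this

/-! ### (P-b) and (alpha) -/

/-- **(P-b)**: above the threshold, ANY presentation `minorsAll evM = ε • w` with `ε ≠ 0` and `w`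
rational computes the Plücker height of `I_m(Σ P_i)`. -/
theorem Hpl_eq_logHeight_of_minors {m : ℤ} {d : ℕ} {P : Fin d → Place Qb (FNb N)}
    (hinj : Function.Injective P) (hoo : ∀ i, P i ≠ oo N)
    (hli : LinearIndependent Qb (evM N m P).row) (hn : dI N m (sumDiv P) + d = dV N m)
    (w : (Fin d → Fin (dV N m)) → ℚ) (ε : Qb) (hε : ε ≠ 0)
    (hw : ∀ J, minorsAll (evM N m P) J = ε * algebraMap ℚ Qb (w J)) :
    Hpl N m (sumDiv P) = logHeight w :=
  Fermat.Agent.GR.H.PlueckerDualAll.logHeight_minorsAll_eq_of_dual_scalar hn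
    (coordMat N m (sumDiv P)) (linearIndependent_coordMat (sumDiv_nonneg P)) (evM N m P) hli
    (evM_mul_coordMat m hinj hoo) w ε hε hw

/-- **(alpha)+(alpha')**: above the threshold, for a rational reduced divisor `Σ P_i` off `∞`,
the Plücker vector of the evaluation matrix is `ε • ξ` with `ε ≠ 0`, `ξ` rational, `ξ J₀ = 1` for
some `J₀`, and `Hpl N m (Σ P_i) = logHeight ξ`. -/
theorem alpha {m : ℤ} {d : ℕ} {P : Fin d → Place Qb (FNb N)}
    (hinj : Function.Injective P) (hoo : ∀ i, P i ≠ oo N) (hD : IsRatDiv (sumDiv P))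
    (hli : LinearIndependent Qb (evM N m P).row) (hn : dI N m (sumDiv P) + d = dV N m) :
    ∃ (ε : Qb) (ξ : (Fin d → Fin (dV N m)) → ℚ), ε ≠ 0 ∧
      (∀ J, minorsAll (evM N m P) J = ε * algebraMap ℚ Qb (ξ J)) ∧ (∃ J₀, ξ J₀ = 1) ∧
      Hpl N m (sumDiv P) = logHeight ξ := by
  obtain ⟨ε, ξ, hε, hξ, hJ₀⟩ := exists_eps_xi (K₀ := ℚ) (Γ := GQ) (evM N m P) hli
    mem_range_of_fixed fun σ => gamma m hinj hoo hD σ
  exact ⟨ε, ξ, hε, hξ, hJ₀, Hpl_eq_logHeight_of_minors hinj hoo hli hn ξ ε hε hξ⟩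

variable (N) in
/-- **(alpha)+(alpha')+(gamma), packaged with the threshold.** -/
theorem exists_threshold_alpha : ∃ c : ℤ, ∀ (m : ℤ) {d : ℕ} (P : Fin d → Place Qb (FNb N)),
    Function.Injective P → (∀ i, P i ≠ oo N) → IsRatDiv (sumDiv P) → c + d ≤ m →
      ∃ (ε : Qb) (ξ : (Fin d → Fin (dV N m)) → ℚ), ε ≠ 0 ∧
        (∀ J, minorsAll (evM N m P) J = ε * algebraMap ℚ Qb (ξ J)) ∧ (∃ J₀, ξ J₀ = 1) ∧
        Hpl N m (sumDiv P) = logHeight ξ := by
  obtain ⟨c, hc⟩ := exists_threshold_ev N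
  refine ⟨c, fun m d P hinj hoo hD hm => ?_⟩
  obtain ⟨hli, hn⟩ := hc m P hinj hoo hm
  exact alpha hinj hoo hD hli (hn hD)

end Fermat.Agent.GR.H.PL.EvPlug
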