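/-
GATE-R (S17) / node GR-H-PL-EV part 5 (helper63): **binder (B2) of GR-H-STAR** (helper3, board
5089) — `SpecBar.AlphaBar N c` holds for some `c`.

`exists_alphaBar N : ∃ c : ℕ, SpecBar.AlphaBar N c`, from `EvPlug.exists_threshold_alpha`
((alpha)+(alpha')), `EvPlug.gamma` ((gamma)) and helper3's `Rat.sq_mem_range_of_perm`
(`ε ^ 2 ∈ ℚ`).
-/
import Mathlib
import Fermat.Agent.GR.H.PL.EvPlug
import Fermat.Agent.GR.H.Star.SpecBar

set_option autoImplicit false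

noncomputable section

open AlgebraicCurve ModularCurve

namespace Fermat.Agent.GR.H.PL.EvAlphaBar

open Fermat.Agent.GR.H.PL Fermat.Agent.GR.H.PL.Ev Fermat.Agent.GR.H.PL.EvPlug
open Fermat.Agent.GR.H.CauchyBinet Fermat.Agent.GR.H.Star

local notation "Qb" => AlgebraicClosure ℚ

variable (N : ℕ) [NeZero N]

theorem isGalois_Qb : IsGalois ℚ Qb := by
  have : Algebra.IsAlgebraic ℚ Qb := AlgebraicClosure.isAlgebraic ℚ
  have : IsAlgClosure ℚ Qb := ⟨inferInstance, inferInstance⟩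
  exact IsAlgClosure.isGalois ℚ _

/-- **(B2)**: the concrete form of (alpha)+(alpha')+(gamma) consumed by `Star/SpecBar`. -/
theorem exists_alphaBar : ∃ c : ℕ, SpecBar.AlphaBar N c := by
  obtain ⟨c, hc⟩ := exists_threshold_alpha N
  refine ⟨c.toNat, fun m d P hinj hoo hD hm => ?_⟩
  have hm' : c + (d : ℤ) ≤ (m : ℤ) := by
    have h1 : c ≤ (c.toNat : ℤ) := Int.self_le_toNat c
    have h2 : ((d + c.toNat : ℕ) : ℤ) ≤ (m : ℤ) := by exact_mod_cast hm
    push_cast at h2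
    linarith
  obtain ⟨ε, ξ, hε, hξ, ⟨J₀, hJ₀⟩, hH⟩ := hc (m : ℤ) P hinj hoo hD hm'
  have hdet : ∀ J : Fin d → Fin (dV N (m : ℤ)),
      ((evM N (m : ℤ) P).submatrix id J).det = ε * algebraMap ℚ Qb (ξ J) := hξ
  have hgal := isGalois_Qb
  refine ⟨ε, ξ, hε, ?_, ?_, fun J => hdet J, hH.symm⟩
  · exact Rat.sq_mem_range_of_perm (evM N (m : ℤ) P)
      (fun σ => gamma (m : ℤ) hinj hoo hD σ) ε ξ hdet ⟨J₀, by rw [hJ₀]; exact one_ne_zero⟩
  · intro h0
    rw [h0] at hJ₀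
    exact zero_ne_one hJ₀

end Fermat.Agent.GR.H.PL.EvAlphaBar
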