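/-
GATE-R (S17) / node GR-H-PL-EV part 4 (helper63): the statements of `GR/H/PL/EvPlug.lean` for an
ARBITRARY finite row type `ι` (in particular `ι = ↥G` for a `Finset G` of points, the row type of
helper3's `Star/Generic.plucker`), by reindexing along `Fintype.equivFin`.

* `evM_comp`, `minorsAll_evM_comp`, `sumDiv_comp_equiv` : reindexing;
* `gamma'`               : (gamma) for `ι`;
* `exists_threshold_ev'` : the threshold statement for `ι` (`card ι` points);
* `Hpl_eq_logHeight_of_minors'` : (P-b) for `ι`;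
* `alpha'`, `exists_threshold_alpha'` : (alpha)+(alpha') for `ι`.
-/
import Mathlib
import Fermat.Agent.GR.H.PL.EvPlug

set_option autoImplicit false

noncomputable section

open AlgebraicCurve ModularCurve

namespace Fermat.Agent.GR.H.PL.EvPlugGen

open Fermat.Agent.GR.H.PL Fermat.Agent.GR.H.PL.Ev Fermat.Agent.GR.H.PL.EvRat
open Fermat.Agent.GR.H.PL.EvPlug Fermat.Agent.GR.H.CauchyBinet Height

local notation "Qb" => AlgebraicClosure ℚ
local notation "GQ" => (AlgebraicClosure ℚ ≃ₐ[ℚ] AlgebraicClosure ℚ)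

variable {N : ℕ} [NeZero N]

/-! ### reindexing -/

omit [NeZero N] in
theorem sumDiv_comp_equiv {ι ι' : Type*} [Fintype ι] [Fintype ι'] (e : ι' ≃ ι)
    (P : ι → Place Qb (FNb N)) : sumDiv (P ∘ e) = sumDiv P := by
  unfold sumDiv
  exact Equiv.sum_comp e fun i => Finsupp.single (P i) (1 : ℤ)

theorem evM_comp (m : ℤ) {ι ι' : Type*} (e : ι' → ι) (P : ι → Place Qb (FNb N)) :
    evM N m (P ∘ e) = (evM N m P).submatrix e id := rfl

theorem minorsAll_evM_comp (m : ℤ) {ι ι' : Type*} [Fintype ι] [DecidableEq ι] [Fintype ι']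
    [DecidableEq ι'] (e : ι' ≃ ι) (P : ι → Place Qb (FNb N)) (J' : ι' → Fin (dV N m)) :
    minorsAll (evM N m (P ∘ e)) J' = minorsAll (evM N m P) (J' ∘ e.symm) := by
  rw [minorsAll_apply, minorsAll_apply, evM_comp,
    ← Matrix.det_submatrix_equiv_self e ((evM N m P).submatrix id (J' ∘ e.symm))]
  congr 1
  ext i j
  simp

variable {ι : Type*} [Fintype ι] [DecidableEq ι]

/-! ### (gamma) -/

omit [DecidableEq ι] in
/-- **(gamma)** for an arbitrary finite row type. -/
theorem gamma' (m : ℤ) {P : ι → Place Qb (FNb N)} (hinj : Function.Injective P)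
    (hoo : ∀ i, P i ≠ oo N) (hD : IsRatDiv (sumDiv P)) (σ : GQ) :
    ∃ π : Equiv.Perm ι, ∀ i j, σ (evM N m P i j) = evM N m P (π i) j := by
  have hreg : ∀ i j, bQ N m j ∈ (P i).toValuationSubring := fun i j =>
    mem_valuationSubring_of_mem (bQ_mem_L m j) (twist_zero_apply (hoo i))
  obtain ⟨π, hπ⟩ := exists_perm_evMat hinj (fun i => deg_place (P i)) hreg (gal N σ) (hD σ)
    (fun j => isRatFun_bQ m j σ)
  exact ⟨π, hπ⟩

/-! ### thresholds -/

variable (N) in
/-- the threshold statement for an arbitrary finite row type. -/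
theorem exists_threshold_ev' : ∃ c : ℤ, ∀ (m : ℤ) {ι : Type*} [Fintype ι]
    (P : ι → Place Qb (FNb N)), Function.Injective P → (∀ i, P i ≠ oo N) →
    c + Fintype.card ι ≤ m →
      LinearIndependent Qb (evM N m P).row ∧
        (IsRatDiv (sumDiv P) → dI N m (sumDiv P) + Fintype.card ι = dV N m) := by
  obtain ⟨c, hc⟩ := exists_threshold_ev N
  refine ⟨c, fun m ι _ P hinj hoo hm => ?_⟩
  let e : Fin (Fintype.card ι) ≃ ι := (Fintype.equivFin ι).symm
  obtain ⟨h1, h2⟩ := hc m (P ∘ e) (hinj.comp e.injective) (fun i => hoo (e i)) hm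
  refine ⟨?_, fun hD => ?_⟩
  · have h3 : LinearIndependent Qb ((evM N m (P ∘ e)).row ∘ e.symm) :=
      h1.comp e.symm e.symm.injective
    have h4 : (evM N m (P ∘ e)).row ∘ e.symm = (evM N m P).row := by
      funext i
      ext j
      show evM N m (P ∘ e) (e.symm i) j = evM N m P i j
      rw [evM_comp, Matrix.submatrix_apply, Equiv.apply_symm_apply, id]
    rwa [h4] at h3
  · have := h2 (by rw [sumDiv_comp_equiv]; exact hD)
    rwa [sumDiv_comp_equiv] at this

/-! ### (P-b) and (alpha) -/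

/-- **(P-b)** for an arbitrary finite row type. -/
theorem Hpl_eq_logHeight_of_minors' {m : ℤ} {P : ι → Place Qb (FNb N)}
    (hinj : Function.Injective P) (hoo : ∀ i, P i ≠ oo N)
    (hli : LinearIndependent Qb (evM N m P).row)
    (hn : dI N m (sumDiv P) + Fintype.card ι = dV N m)
    (w : (ι → Fin (dV N m)) → ℚ) (ε : Qb) (hε : ε ≠ 0)
    (hw : ∀ J, minorsAll (evM N m P) J = ε * algebraMap ℚ Qb (w J)) :
    Hpl N m (sumDiv P) = logHeight w := by
  let e : Fin (Fintype.card ι) ≃ ι := (Fintype.equivFin ι).symm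
  have hli' : LinearIndependent Qb (evM N m (P ∘ e)).row := hli.comp e e.injective
  have h := Hpl_eq_logHeight_of_minors (P := P ∘ e) (hinj.comp e.injective) (fun i => hoo (e i))
    hli' (by rw [sumDiv_comp_equiv]; exact hn) (fun J' => w (J' ∘ e.symm)) ε hε
    (fun J' => by rw [minorsAll_evM_comp]; exact hw _)
  rw [sumDiv_comp_equiv] at h
  rw [h]
  exact logHeight_comp_equiv (Equiv.arrowCongr e (Equiv.refl (Fin (dV N m)))) w

/-- **(alpha)+(alpha')** for an arbitrary finite row type. -/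
theorem alpha' {m : ℤ} {P : ι → Place Qb (FNb N)}
    (hinj : Function.Injective P) (hoo : ∀ i, P i ≠ oo N) (hD : IsRatDiv (sumDiv P))
    (hli : LinearIndependent Qb (evM N m P).row)
    (hn : dI N m (sumDiv P) + Fintype.card ι = dV N m) :
    ∃ (ε : Qb) (ξ : (ι → Fin (dV N m)) → ℚ), ε ≠ 0 ∧
      (∀ J, minorsAll (evM N m P) J = ε * algebraMap ℚ Qb (ξ J)) ∧ (∃ J₀, ξ J₀ = 1) ∧
      Hpl N m (sumDiv P) = logHeight ξ := by
  obtain ⟨ε, ξ, hε, hξ, hJ₀⟩ := exists_eps_xi (K₀ := ℚ) (Γ := GQ) (evM N m P) hli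
    mem_range_of_fixed fun σ => gamma' m hinj hoo hD σ
  exact ⟨ε, ξ, hε, hξ, hJ₀, Hpl_eq_logHeight_of_minors' hinj hoo hli hn ξ ε hε hξ⟩

variable (N) in
/-- **(alpha)+(alpha'), packaged with the threshold**, for arbitrary finite row types. -/
theorem exists_threshold_alpha' : ∃ c : ℤ, ∀ (m : ℤ) {ι : Type*} [Fintype ι] [DecidableEq ι]
    (P : ι → Place Qb (FNb N)), Function.Injective P → (∀ i, P i ≠ oo N) →
    IsRatDiv (sumDiv P) → c + Fintype.card ι ≤ m →
      ∃ (ε : Qb) (ξ : (ι → Fin (dV N m)) → ℚ), ε ≠ 0 ∧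
        (∀ J, minorsAll (evM N m P) J = ε * algebraMap ℚ Qb (ξ J)) ∧ (∃ J₀, ξ J₀ = 1) ∧
        Hpl N m (sumDiv P) = logHeight ξ := by
  obtain ⟨c, hc⟩ := exists_threshold_ev' N
  refine ⟨c, fun m ι _ _ P hinj hoo hD hm => ?_⟩
  obtain ⟨hli, hn⟩ := hc m P hinj hoo hm
  exact alpha' hinj hoo hD hli (hn hD)

end Fermat.Agent.GR.H.PL.EvPlugGen
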