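/-
GATE-R / S17, node GR-H-PL-BASE part 2 (helper1): `injective_I` of helper43's PL contract (4782):
above a threshold, a rational divisor `D` is determined by the ℚ-space `I m D = L_ℚ(m∞ − D)`.
Plug of GR/H/PL/BaseLocus (base locus lemma) into GR/H/PL/Rat (`span_I` = Speiser).
-/
import Fermat.Agent.GR.H.PL.Rat
import Fermat.Agent.GR.H.PL.BaseLocus

set_option autoImplicit false

open AlgebraicCurve ModularCurve

namespace Fermat.Agent.GR.H.PL

local notation "Qb" => AlgebraicClosure ℚ

variable (N : ℕ) [NeZero N]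

/-- **`injective_I`**: there is a threshold `c` such that for rational divisors `D, D'` with
`c + deg D ≤ m` and `c + deg D' ≤ m`: `I m D = I m D' → D = D'`. -/
theorem injective_I : ∃ c : ℤ, ∀ (m : ℤ) (D D' : Divisor Qb (FNb N)), IsRatDiv D → IsRatDiv D' →
    c + Divisor.degree D ≤ m → c + Divisor.degree D' ≤ m → I m D = I m D' → D = D' := by
  obtain ⟨c, hc⟩ := BaseLocus.modularBar_exists_threshold N
  refine ⟨c, fun m D D' hD hD' hm hm' h => ?_⟩
  have hdeg : Divisor.degree (Finsupp.single (oo N) m : Divisor Qb (FNb N)) = m := by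
    rw [Divisor.degree_single, Fermat.Agent.GR.W.RatRep.deg_cuspInf N]
    simp
  apply hc (Finsupp.single (oo N) m) D D' (by rw [hdeg]; exact hm) (by rw [hdeg]; exact hm')
  have h1 := span_I hD m
  have h2 := span_I hD' m
  unfold twist at h1 h2
  rw [← h1, ← h2, h]

/-- The same threshold statement for the underlying sets (`D ↦ (I m D : Set _)` is injective on
rational divisors of bounded degree). -/
theorem injOn_I : ∃ c : ℤ, ∀ (m : ℤ) (e : ℤ), c + e ≤ m →
    Set.InjOn (fun D : Divisor Qb (FNb N) => I m D)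
      {D | IsRatDiv D ∧ Divisor.degree D ≤ e} := by
  obtain ⟨c, hc⟩ := injective_I N
  refine ⟨c, fun m e hme D hD D' hD' h => ?_⟩
  exact hc m D D' hD.1 hD'.1 (by linarith [hD.2]) (by linarith [hD'.2]) h

end Fermat.Agent.GR.H.PL
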