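/-
GATE-R / S17, node GR-H-PL (helper43): **the rational frame on `X₀(N)`** — part 3.

* `bV_linearIndependent_Qb`, `sum_smul_bV_mem` : `bV N m` is `ℚ̄`-independent inside `L(m ∞)`;
* `mulMat_ker_eq_bot`, `mulMat_cols_linearIndependent` : for `u ∈ ℚ̄^{dV j} ∖ 0` the matrix of
  "multiplication by `u`" `V_k ⊗ ℚ̄ → V_{j+k} ⊗ ℚ̄` (structure constants `sc N j k`) has trivial
  kernel — the base-point-freeness input of the certificate for `GR/H/MulLemma` (ML-CERT);
* `coordMat_linearIndependent`, `minorsAll_coordMat_ne_zero`;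
* `abs_Hpl_add_div0_sub_le` : **(ML')** `|H_{j+k}(E + (u)_0) - (r · h(u) + H_k(E))| ≤ C` uniformly in
  `(E, u)` with `dI N k E = r`, from a left-inverse certificate for `sc N j k`;
* `exists_small` : (SIEGEL) `∃ f ∈ I_m(D) ∖ 0`, `h(f) ≤ H_m(D) / dI + log dI`.
-/
import Fermat.Agent.GR.H.PL.Coord
import Fermat.Agent.GR.H.SmallVecMinors

set_option autoImplicit false

noncomputable section

open AlgebraicCurve ModularCurve
open Fermat.Agent.GR.H.CauchyBinet Fermat.Agent.GR.H.MulLemma
open scoped Matrix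

namespace Fermat.Agent.GR.H.PL

local notation "Qb" => AlgebraicClosure ℚ
local notation "GQ" => (AlgebraicClosure ℚ ≃ₐ[ℚ] AlgebraicClosure ℚ)

variable {N : ℕ} [NeZero N]

/-- the basis `bV N m` of `V_m` stays linearly independent over `ℚ̄` -/
theorem bV_linearIndependent_Qb (m : ℤ) :
    LinearIndependent Qb (fun j => ((bV N m j : V (N := N) m) : FNb N)) := by
  refine linearIndependent_Qb _ (fun j => (mem_I.1 (bV N m j).2).1) ?_
  exact (bV N m).linearIndependent.map' (V (N := N) m).subtype (Submodule.ker_subtype _)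

/-- products of basis vectors in coordinates -/
theorem bV_mul_bV (j k : ℤ) (t : Fin (dV N j)) (i : Fin (dV N k)) :
    ((bV N j t : V (N := N) j) : FNb N) * ((bV N k i : V (N := N) k) : FNb N) =
      ∑ κ, sc N j k κ i t • ((bV N (j + k) κ : V (N := N) (j + k)) : FNb N) :=
  (sum_coordFun_smul (mul_mem_V (bV N j t).2 (bV N k i).2)).symm

/-- **multiplication by `u ≠ 0` is injective over `ℚ̄`**, in coordinates -/
theorem mulMat_ker_eq_bot (j k : ℤ) (u : Fin (dV N j) → Qb) (hu : u ≠ 0)
    (x : Fin (dV N k) → Qb)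
    (hx : (mulMat (fun κ i t => algebraMap ℚ Qb (sc N j k κ i t)) u).mulVec x = 0) : x = 0 := by
  classical
  set U : FNb N := ∑ t, u t • ((bV N j t : V (N := N) j) : FNb N) with hU
  set X : FNb N := ∑ i, x i • ((bV N k i : V (N := N) k) : FNb N) with hX
  have hU0 : U ≠ 0 := by
    intro h0
    apply hu
    funext t
    exact (Fintype.linearIndependent_iff.mp (bV_linearIndependent_Qb (N := N) j)) u h0 t
  have hprod : U * X = 0 := by
    have h1 : U * X = ∑ κ, (∑ i, (∑ t, algebraMap ℚ Qb (sc N j k κ i t) * u t) * x i) •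
        ((bV N (j + k) κ : V (N := N) (j + k)) : FNb N) := by
      rw [hU, hX, Finset.sum_mul_sum]
      have h2 : ∀ t i, (u t • ((bV N j t : V (N := N) j) : FNb N)) *
          (x i • ((bV N k i : V (N := N) k) : FNb N)) =
          ∑ κ, (algebraMap ℚ Qb (sc N j k κ i t) * u t * x i) •
            ((bV N (j + k) κ : V (N := N) (j + k)) : FNb N) := by
        intro t i
        rw [smul_mul_smul_comm, bV_mul_bV, Finset.smul_sum]
        refine Finset.sum_congr rfl fun κ _ => ?_
        rw [← algebraMap_smul Qb (sc N j k κ i t), smul_smul]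
        congr 1
        ring
      rw [Finset.sum_congr rfl fun t _ => Finset.sum_congr rfl fun i _ => h2 t i]
      rw [Finset.sum_comm]
      rw [Finset.sum_congr rfl fun i _ => Finset.sum_comm]
      rw [Finset.sum_comm]
      refine Finset.sum_congr rfl fun κ _ => ?_
      rw [Finset.sum_smul]
      refine Finset.sum_congr rfl fun i _ => ?_
      rw [Finset.sum_mul, Finset.sum_smul]
    rw [h1]
    refine Finset.sum_eq_zero fun κ _ => ?_
    have h3 := congrFun hx κ
    rw [Matrix.mulVec, dotProduct] at h3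
    simp only [mulMat_apply] at h3
    rw [h3]
    exact zero_smul _ _
  have hX0 : X = 0 := (mul_eq_zero.mp hprod).resolve_left hU0
  funext i
  exact (Fintype.linearIndependent_iff.mp (bV_linearIndependent_Qb (N := N) k)) x hX0 i

/-- the columns of the multiplication matrix are `ℚ̄`-independent for `u ≠ 0` -/
theorem mulMat_cols_linearIndependent (j k : ℤ) (u : Fin (dV N j) → Qb) (hu : u ≠ 0) :
    LinearIndependent Qb (fun i : Fin (dV N k) => fun κ : Fin (dV N (j + k)) =>
      mulMat (fun κ i t => algebraMap ℚ Qb (sc N j k κ i t)) u κ i) := by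
  rw [Fintype.linearIndependent_iff]
  intro g hg i
  have h := mulMat_ker_eq_bot j k u hu g (by
    funext κ
    have := congrFun hg κ
    simp only [Finset.sum_apply, Pi.smul_apply, smul_eq_mul, Pi.zero_apply] at this
    rw [Matrix.mulVec, dotProduct, Pi.zero_apply, ← this]
    exact Finset.sum_congr rfl fun i _ => mul_comm _ _)
  exact congrFun h i

/-! ### Nonvanishing of the Plücker vector -/

theorem coordMat_linearIndependent {m : ℤ} {D : Divisor Qb (FNb N)} (hD : 0 ≤ D) :
    LinearIndependent ℚ (fun a => coordMat N m D a) := by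
  refine linearIndependent_famMat _ (fun a => I_le_V hD (bI N m D a).2) ?_
  exact (bI N m D).linearIndependent.map' (I m D).subtype (Submodule.ker_subtype _)

theorem minorsAll_coordMat_ne_zero {m : ℤ} {D : Divisor Qb (FNb N)} (hD : 0 ≤ D) :
    minorsAll (coordMat N m D) ≠ 0 := by
  obtain ⟨f, hf⟩ := Fermat.Agent.GR.H.SmallVec.exists_pluecker_ne_zero
    (fun a => coordMat N m D a) (coordMat_linearIndependent hD)
  intro h0
  apply hf
  have := Fermat.Agent.GR.H.SmallVecMinors.pluecker_eq_minorsAll (coordMat N m D)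
  rw [this, h0]
  rfl

theorem coordFun_ne_zero {m : ℤ} {f : FNb N} (hf : f ∈ V (N := N) m) (hf0 : f ≠ 0) :
    coordFun N m f ≠ 0 := by
  intro h
  apply hf0
  refine coordFun_injOn hf (Submodule.zero_mem _) (h.trans ?_)
  rw [coordFun_of_mem (Submodule.zero_mem _)]
  exact (map_zero _).symm

/-! ### (ML') -/

open MvPolynomial in
/-- **(ML')**: from a left-inverse certificate for the structure constants `sc N j k`,
`|H_{j+k}(E + (u)_0) - (r · h(u) + H_k(E))| ≤ C` uniformly over all `E ≥ 0` with `dI N k E = r`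
and all `u ∈ V_j ∖ 0`. -/
theorem abs_Hpl_add_div0_sub_le (j k : ℤ) {D : ℕ}
    (G : Fin (dV N j) → Matrix (Fin (dV N k)) (Fin (dV N (j + k))) (MvPolynomial (Fin (dV N j)) ℚ))
    (hG : ∀ s i κ, (G s i κ).IsHomogeneous D)
    (hGA : ∀ s, G s * mulMatPoly (sc N j k) =
      (X s : MvPolynomial (Fin (dV N j)) ℚ) ^ (D + 1) • (1 : Matrix _ _ _)) (r : ℕ) :
    ∃ C : ℝ, ∀ (E : Divisor Qb (FNb N)) (u : FNb N), 0 ≤ E → dI N k E = r →
      u ∈ V (N := N) j → u ≠ 0 →
      |Hpl N (j + k) (E + div0 j u) - (r * hV N j u + Hpl N k E)| ≤ C := by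
  obtain ⟨C, hC⟩ := abs_logHeight_minorsAll_mul_sub_le_of_cert (n := Fin r) (sc N j k) G hG hGA
  refine ⟨C, fun E u hE hr hu hu0 => ?_⟩
  subst hr
  have h := (hC (coordFun N j u) (coordMat N k E) (coordFun_ne_zero hu hu0)
    (minorsAll_coordMat_ne_zero hE)).2
  rw [← Hpl_add_div0 hE hu hu0, Fintype.card_fin] at h
  exact h

/-! ### (SIEGEL) -/

/-- **small section**: `I_m(D) ≠ 0`, `D ≥ 0` ⟹ there is `f ∈ I_m(D) ∖ 0` with
`h(f) ≤ H_m(D) / dI + log dI`. -/
theorem exists_small {m : ℤ} {D : Divisor Qb (FNb N)} (hD : 0 ≤ D) (hpos : 0 < dI N m D) :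
    ∃ f : FNb N, f ∈ I m D ∧ f ≠ 0 ∧
      hV N m f ≤ (1 / (dI N m D : ℝ)) * Hpl N m D + Real.log (dI N m D) := by
  classical
  have : Nonempty (Fin (dI N m D)) := ⟨⟨0, hpos⟩⟩
  obtain ⟨x, mm, hx0, hmm0, hxm, hle⟩ :=
    Fermat.Agent.GR.H.SmallVecMinors.exists_small_vecMul (coordMat N m D)
      (coordMat_linearIndependent hD)
  have hVa : ∀ a, ((bI N m D a : I m D) : FNb N) ∈ V (N := N) m := fun a =>
    I_le_V hD (bI N m D a).2
  let f' : I m D := ∑ a, mm a • bI N m D a
  refine ⟨(f' : FNb N), f'.2, ?_, ?_⟩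
  · intro h0
    apply hmm0
    have h1 : f' = 0 := Subtype.ext h0
    funext a
    exact (Fintype.linearIndependent_iff.mp (bI N m D).linearIndependent) mm h1 a
  · have hcoord : coordFun N m (f' : FNb N) = Fermat.Agent.GR.H.SmallVec.castLin _ x := by
      rw [hxm]
      have h1 : (f' : FNb N) = ∑ a, mm a • ((bI N m D a : I m D) : FNb N) := by
        simp [f']
      rw [h1, coordFun_sum _ _ fun a _ => Submodule.smul_mem _ _ (hVa a)]
      funext i
      rw [Finset.sum_apply, Matrix.vecMul, dotProduct]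
      refine Finset.sum_congr rfl fun a _ => ?_
      rw [coordFun_smul _ (hVa a)]
      rfl
    unfold hV Hpl
    rw [hcoord]
    simpa [Fintype.card_fin] using hle

end Fermat.Agent.GR.H.PL
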