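/-
GATE-R / S17, node GR-H-ML-DOMAIN part 2 (helper44): the multiplication lemma PLUGGED into
helper43's rational frame `GR/H/PL/{Rat,Coord}`.

* `sc_table` : `bV j t * bV k i = ∑ κ, sc N j k κ i t • bV (j + k) κ`;
* `linearIndependent_Qb_bV` : the `ℚ`-basis `bV N m` of `V_m` stays `ℚ̄`-independent;
* `sc_injective` : over `ℚ̄`, multiplication by every `u ≠ 0` (in `sc`-coordinates) is injective
  — the hypothesis `hinj` of helper17's `MulCert.mulLemma` / `RowSpace.mulLemma_rowSpace`
  (= `mulMat_injective`, item (i) of helper43's PL/Mul plan), via `MulDomain`;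
* `exists_ML_const` : for fixed levels `j k : ℤ` ONE constant `C` with
  `|Hpl (j+k) (E + div0 j u) - (dI k E * hV j u + Hpl k E)| ≤ C` for ALL `E ≥ 0`, `u ∈ V_j ∖ 0`
  (= (ML') of DESIGN-H v2; all dimensions `dI N k E` at once);
* `exists_ML_const_le` : ONE constant for all natural levels `j + k ≤ M`
  (the uniformity of `HeightFrame.ML`).
-/
import Fermat.Agent.GR.H.PL.Coord
import Fermat.Agent.GR.H.MulDomain
import Fermat.Agent.GR.H.RowSpace

set_option autoImplicit false

noncomputable section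

open AlgebraicCurve ModularCurve
open Fermat.Agent.GR.H.CauchyBinet Fermat.Agent.GR.H.MulLemma Fermat.Agent.GR.H.PL
open scoped Matrix

namespace Fermat.Agent.GR.H.PLMulPlug

local notation "Qb" => AlgebraicClosure ℚ

variable (N : ℕ) [NeZero N]

/-- The multiplication table of the bases `bV`. -/
theorem sc_table (j k : ℤ) (t : Fin (dV N j)) (i : Fin (dV N k)) :
    ((bV N j t : V (N := N) j) : FNb N) * ((bV N k i : V (N := N) k) : FNb N) =
      ∑ κ, sc N j k κ i t • ((bV N (j + k) κ : V (N := N) (j + k)) : FNb N) :=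
  (sum_coordFun_smul (mul_mem_V (bV N j t).2 (bV N k i).2)).symm

/-- The basis `bV N m` of `V_m` stays linearly independent over `ℚ̄`. -/
theorem linearIndependent_Qb_bV (m : ℤ) :
    LinearIndependent Qb (fun t => ((bV N m t : V (N := N) m) : FNb N)) :=
  linearIndependent_Qb _ (fun t => (mem_I.1 (bV N m t).2).1)
    ((bV N m).linearIndependent.map' (V (N := N) m).subtype (Submodule.ker_subtype _))

/-- **No zero divisors**: over `ℚ̄`, multiplication by every nonzero `u` is injective in the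
coordinates `sc N j k` (the function field is a field and `bV` stays a `ℚ̄`-independent). -/
theorem sc_injective (j k : ℤ) : ∀ u : Fin (dV N j) → Qb, u ≠ 0 → Function.Injective
    (mulMat (fun κ i t => algebraMap ℚ Qb (sc N j k κ i t)) u).mulVec :=
  MulDomain.mulVec_injective_of_table
    (fun t => ((bV N j t : V (N := N) j) : FNb N))
    (fun i => ((bV N k i : V (N := N) k) : FNb N))
    (fun κ => ((bV N (j + k) κ : V (N := N) (j + k)) : FNb N))
    (sc N j k) (sc_table N j k) (linearIndependent_Qb_bV N j) (linearIndependent_Qb_bV N k)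

variable {N}

theorem coordFun_ne_zero {m : ℤ} {u : FNb N} (hu : u ∈ V (N := N) m) (hu0 : u ≠ 0) :
    coordFun N m u ≠ 0 := by
  intro h
  apply hu0
  refine coordFun_injOn hu (Submodule.zero_mem _) ?_
  rw [h, coordFun_of_mem (Submodule.zero_mem _)]
  exact (map_zero _).symm

theorem linearIndependent_coordMat {m : ℤ} {D : Divisor Qb (FNb N)} (hD : 0 ≤ D) :
    LinearIndependent ℚ (coordMat N m D).row :=
  linearIndependent_famMat _ (fun a => I_le_V hD (bI N m D a).2)
    ((bI N m D).linearIndependent.map' (I m D).subtype (Submodule.ker_subtype _))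

variable (N)

/-- **(ML') at fixed levels**: one constant for all `E ≥ 0` (of any degree) and all
`u ∈ V_j ∖ 0`. -/
theorem exists_ML_const (j k : ℤ) : ∃ C : ℝ, ∀ (E : Divisor Qb (FNb N)) (u : FNb N), 0 ≤ E →
    u ∈ V (N := N) j → u ≠ 0 →
    |Hpl N (j + k) (E + div0 j u) - ((dI N k E : ℝ) * hV N j u + Hpl N k E)| ≤ C := by
  classical
  obtain ⟨C, hC⟩ := RowSpace.mulLemma_rowSpace (L := Qb) (sc N j k) (sc_injective N j k)
  refine ⟨C, fun E u hE hu hu0 => ?_⟩
  rw [Hpl_add_div0 hE hu hu0]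
  have hW := linearIndependent_coordMat (N := N) (m := k) hE
  have hcu := coordFun_ne_zero hu hu0
  have hW' : LinearIndependent ℚ
      (coordMat N k E * (mulMat (sc N j k) (coordFun N j u))ᵀ).row := by
    obtain ⟨_, h⟩ := MulCert.mulLemma (L := Qb) (n := Fin (dI N k E)) (sc N j k)
      (sc_injective N j k)
    exact MulCert.linearIndependent_of_minorsAll_ne_zero _
      (h _ _ hcu (MulCert.minorsAll_ne_zero_of_linearIndependent _ hW)).1
  exact hC _ _ (coordFun N j u) (coordMat N k E) _ hcu hW hW' rfl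

/-- **(ML') uniformly over natural levels `j + k ≤ M`** (the uniformity of `HeightFrame.ML`). -/
theorem exists_ML_const_le (M : ℕ) : ∃ C : ℝ, ∀ (j k : ℕ), j + k ≤ M →
    ∀ (E : Divisor Qb (FNb N)) (u : FNb N), 0 ≤ E → u ∈ V (N := N) (j : ℤ) → u ≠ 0 →
    |Hpl N ((j : ℤ) + (k : ℤ)) (E + div0 (j : ℤ) u) -
      ((dI N (k : ℤ) E : ℝ) * hV N (j : ℤ) u + Hpl N (k : ℤ) E)| ≤ C := by
  choose Cjk hCjk using fun jk : ℕ × ℕ => exists_ML_const N (jk.1 : ℤ) (jk.2 : ℤ)
  refine ⟨∑ jk ∈ Finset.range (M + 1) ×ˢ Finset.range (M + 1), |Cjk jk|,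
    fun j k hjk E u hE hu hu0 => ?_⟩
  have hmem : (j, k) ∈ Finset.range (M + 1) ×ˢ Finset.range (M + 1) := by
    simp only [Finset.mem_product, Finset.mem_range]
    omega
  calc _ ≤ Cjk (j, k) := hCjk (j, k) E u hE hu hu0
    _ ≤ |Cjk (j, k)| := le_abs_self _
    _ ≤ _ := Finset.single_le_sum (f := fun jk => |Cjk jk|) (fun _ _ => abs_nonneg _) hmem

end Fermat.Agent.GR.H.PLMulPlug
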